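/-
S31lib / PET / Transfer  (helper3).

The transfer identity: for a partition function `ψ` of `Γ`, a group `Γ'` and two "coset families"
`u₁ : ι₁ → G`, `u₂ : ι₂ → G` (each with a bijection `ι × Γ' ≃ Γ`), and a bounded measurable
`Γ'`-invariant `H`:
`∑ x, ∫ H ((u₁ x)⁻¹ z) ψ(z) dμ = ∑ y, ∫ H ((u₂ y)⁻¹ z) ψ(z) dμ`.
This is the measure-theoretic heart of the self-adjointness of the Hecke operators.
-/
import Mathlib
import Fermat.Agent.S31lib.PET.PartitionC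

set_option autoImplicit false
set_option linter.unusedSectionVars false

noncomputable section

namespace Fermat.Agent.S31lib.PET

open MeasureTheory ENNReal

variable {G X : Type*} [Group G] [MulAction G X] [MeasurableSpace X] {μ : Measure X}
  [SMulInvariantMeasure G X μ] [MeasurableConstSMul G X]

variable {Γ : Type*} [Group Γ] {ρ : Γ →* G} {ψ : X → ℝ≥0∞}

/-- the total mass of the partition function of a finite family -/
theorem lintegral_family {ι : Type*} [Fintype ι] (hψ : Measurable ψ) (u : ι → G) :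
    ∫⁻ w, ∑' x, ψ (u x • w) ∂μ = Fintype.card ι * ∫⁻ z, ψ z ∂μ := by
  simp_rw [tsum_fintype]
  rw [lintegral_finsetSum _ (fun x _ => measurable_comp_smul hψ (u x))]
  simp_rw [lintegral_comp_smul (μ := μ) _ hψ]
  rw [Finset.sum_const, Finset.card_univ, nsmul_eq_mul]

theorem lintegral_family_ne_top {ι : Type*} [Fintype ι] (hψ : Measurable ψ) (u : ι → G)
    (hfin : ∫⁻ z, ψ z ∂μ ≠ ∞) : ∫⁻ w, ∑' x, ψ (u x • w) ∂μ ≠ ∞ := by
  rw [lintegral_family hψ u]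
  exact ENNReal.mul_ne_top (ENNReal.natCast_ne_top _) hfin

omit [SMulInvariantMeasure G X μ] [MeasurableConstSMul G X] in
theorem toReal_family {ι : Type*} [Fintype ι] (hψ : IsPartition ρ ψ) (u : ι → G) (w : X) :
    (∑' x, ψ (u x • w)).toReal = ∑ x, (ψ (u x • w)).toReal := by
  rw [tsum_fintype, ENNReal.toReal_sum]
  intro x _
  exact ne_top_of_le_ne_top ENNReal.one_ne_top (hψ.le_one _)

/-- one family: the sum of the shifted integrals is the integral against the family partition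
function. -/
theorem sum_integral_family {ι : Type*} [Fintype ι] (hψ : IsPartition ρ ψ)
    (hfin : ∫⁻ z, ψ z ∂μ ≠ ∞) (u : ι → G) {H : X → ℂ} (hm : Measurable H) {C : ℝ}
    (hb : ∀ z, ‖H z‖ ≤ C) :
    ∑ x, ∫ z, H ((u x)⁻¹ • z) * ((ψ z).toReal : ℂ) ∂μ =
      ∫ w, H w * (((∑' x, ψ (u x • w)).toReal : ℝ) : ℂ) ∂μ := by
  have h1 : ∀ x, ∫ z, H ((u x)⁻¹ • z) * ((ψ z).toReal : ℂ) ∂μ =
      ∫ w, H w * ((ψ (u x • w)).toReal : ℂ) ∂μ := by
    intro x
    rw [← integral_smul_eq_self (μ := μ) (fun z => H ((u x)⁻¹ • z) * ((ψ z).toReal : ℂ))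
      (g := u x)]
    simp only [inv_smul_smul]
  have hint : ∀ x, Integrable (fun w => H w * ((ψ (u x • w)).toReal : ℂ)) μ := by
    intro x
    have hi : Integrable (fun z => (ψ z).toReal) μ := hψ.integrable_toReal hfin
    have hi' : Integrable (fun w => (ψ (u x • w)).toReal) μ :=
      (measurePreserving_smul (u x) μ).integrable_comp_of_integrable hi
    exact (hi'.ofReal (𝕜 := ℂ)).bdd_mul hm.aestronglyMeasurable (Filter.Eventually.of_forall hb)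
  simp_rw [h1]
  rw [← integral_finset_sum _ (fun x _ => hint x)]
  refine integral_congr_ae (Filter.Eventually.of_forall fun w => ?_)
  simp only
  rw [toReal_family hψ u w, ← Finset.mul_sum]
  push_cast
  rfl

/-- **The transfer identity.** -/
theorem IsPartition.sum_integral_eq {Γ' : Type*} [Group Γ'] [Countable Γ']
    (hψ : IsPartition ρ ψ) (hfin : ∫⁻ z, ψ z ∂μ ≠ ∞) (ρ' : Γ' →* G)
    {ι₁ ι₂ : Type*} [Fintype ι₁] [Fintype ι₂]
    (u₁ : ι₁ → G) (t₁ : G) (Φ₁ : ι₁ × Γ' ≃ Γ)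
    (hΦ₁ : ∀ (x : ι₁) (γ' : Γ'), u₁ x * ρ' γ' = ρ (Φ₁ (x, γ')) * t₁)
    (u₂ : ι₂ → G) (t₂ : G) (Φ₂ : ι₂ × Γ' ≃ Γ)
    (hΦ₂ : ∀ (y : ι₂) (γ' : Γ'), u₂ y * ρ' γ' = ρ (Φ₂ (y, γ')) * t₂)
    {H : X → ℂ} (hm : Measurable H) (hb : ∃ C : ℝ, ∀ z, ‖H z‖ ≤ C)
    (hinv : ∀ (γ' : Γ') (z : X), H (ρ' γ' • z) = H z) :
    ∑ x, ∫ z, H ((u₁ x)⁻¹ • z) * ((ψ z).toReal : ℂ) ∂μ =
      ∑ y, ∫ z, H ((u₂ y)⁻¹ • z) * ((ψ z).toReal : ℂ) ∂μ := by
  obtain ⟨C, hC⟩ := hb
  have P₁ := hψ.of_family ρ' u₁ t₁ Φ₁ hΦ₁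
  have P₂ := hψ.of_family ρ' u₂ t₂ Φ₂ hΦ₂
  rw [sum_integral_family hψ hfin u₁ hm hC, sum_integral_family hψ hfin u₂ hm hC]
  exact P₁.integral_eq P₂ (lintegral_family_ne_top hψ.measurable u₁ hfin)
    (lintegral_family_ne_top hψ.measurable u₂ hfin) hm ⟨C, hC⟩ hinv

end Fermat.Agent.S31lib.PET
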