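/-
S31lib / PET / Adjoint (helper2): P4c of the Petersson block.
Self-adjointness of `T_ℓ` (`ℓ ∤ N`) for the Petersson integral against a `Γ₀(N)`-partition `ψ`,
from the two coset families (A: `alphaRep`, B: `bRep`) and the transfer identity
`IsPartition.sum_integral_eq`.
-/
import Mathlib
import Fermat.Agent.S31lib.PET.Transfer
import Fermat.Prelude.Def_CuspForm_HeckeAlgebra
import Fermat.Prelude.Sol.S_ModularForm_heckeT_slash_eq_self_of_mem_Gamma0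

set_option autoImplicit false
set_option linter.unusedSectionVars false
set_option linter.unusedVariables false
set_option linter.style.haveILetI false

noncomputable section

namespace Fermat.Agent.S31lib.PET

open UpperHalfPlane CongruenceSubgroup Matrix.SpecialLinearGroup ModularForm MeasureTheory ENNReal
open P2MW.S_ModularForm_heckeT_slash_eq_self_of_mem_Gamma0.ModularForm.HeckeSlashInvariance
open scoped MatrixGroups ModularForm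

/-! ### Generalities on `petersson` -/

theorem petersson_sum_left {ι : Type*} (s : Finset ι) (k : ℤ) (F : ι → ℍ → ℂ) (G : ℍ → ℂ) (z : ℍ) :
    petersson k (∑ x ∈ s, F x) G z = ∑ x ∈ s, petersson k (F x) G z := by
  simp only [petersson, Finset.sum_apply, map_sum, Finset.sum_mul]

theorem petersson_sum_right {ι : Type*} (s : Finset ι) (k : ℤ) (F : ℍ → ℂ) (G : ι → ℍ → ℂ) (z : ℍ) :
    petersson k F (∑ x ∈ s, G x) z = ∑ x ∈ s, petersson k F (G x) z := by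
  simp only [petersson, Finset.sum_apply, Finset.mul_sum, Finset.sum_mul]

/-- weight 2: `petersson` is invariant under slashing both arguments by `γ` with `det γ > 0`. -/
theorem petersson_two_slash (F G : ℍ → ℂ) (γ : GL (Fin 2) ℝ) (hγ : 0 < (γ.det : ℝ)) (z : ℍ) :
    petersson 2 (F ∣[(2 : ℤ)] γ) (G ∣[(2 : ℤ)] γ) z = petersson 2 F G (γ • z) := by
  rw [petersson_slash]
  have hσ : UpperHalfPlane.σ γ = .refl ℝ ℂ := by rw [UpperHalfPlane.σ, if_pos hγ]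
  rw [hσ]
  simp

/-- pointwise bound `‖P(F,G)‖ ≤ (‖P(F,F)‖ + ‖P(G,G)‖)/2` -/
theorem norm_petersson_le (k : ℤ) (F G : ℍ → ℂ) (z : ℍ) :
    ‖petersson k F G z‖ ≤ (‖petersson k F F z‖ + ‖petersson k G G z‖) / 2 := by
  simp only [petersson, norm_mul, RCLike.norm_conj, norm_zpow]
  have h0 : 0 ≤ ‖(z.im : ℂ)‖ ^ k := by positivity
  nlinarith [sq_nonneg (‖F z‖ - ‖G z‖), mul_nonneg h0 (sq_nonneg (‖F z‖ - ‖G z‖))]

/-! ### Scalars act trivially in weight 2 -/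

section Scalar

variable {ℓ : ℕ}

theorem heckeDiag_smul_heckeMatrix_zero (hℓ : ℓ ≠ 0) (z : ℍ) :
    heckeDiagMatrix ℓ • (heckeMatrix ℓ 0 • z) = z := by
  apply UpperHalfPlane.ext
  rw [coe_heckeDiagMatrix_smul hℓ, coe_heckeMatrix_smul hℓ]
  have : (ℓ : ℂ) ≠ 0 := by exact_mod_cast hℓ
  push_cast
  field_simp
  ring

theorem slash_heckeDiag_heckeMatrix_zero (hℓ : ℓ ≠ 0) (F : ℍ → ℂ) :
    (F ∣[(2 : ℤ)] heckeDiagMatrix ℓ) ∣[(2 : ℤ)] heckeMatrix ℓ 0 = F := by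
  funext z
  rw [slash_heckeMatrix_apply 2 hℓ, slash_heckeDiagMatrix_apply 2 hℓ,
    heckeDiag_smul_heckeMatrix_zero hℓ]
  have : (ℓ : ℂ) ≠ 0 := by exact_mod_cast hℓ
  norm_num
  field_simp

/-- `δ δ'` is the scalar matrix `ℓ`, hence central. -/
theorem heckeDiag_mul_heckeMatrix_zero_comm (hℓ : ℓ ≠ 0) (x : GL (Fin 2) ℝ) :
    heckeDiagMatrix ℓ * heckeMatrix ℓ 0 * x = x * (heckeDiagMatrix ℓ * heckeMatrix ℓ 0) := by
  apply Units.ext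
  have hs : ((heckeDiagMatrix ℓ * heckeMatrix ℓ 0 : GL (Fin 2) ℝ) : Matrix (Fin 2) (Fin 2) ℝ) =
      (ℓ : ℝ) • (1 : Matrix (Fin 2) (Fin 2) ℝ) := by
    rw [Units.val_mul, val_heckeDiagMatrix hℓ, val_heckeMatrix hℓ]
    ext i j
    fin_cases i <;> fin_cases j <;> simp
  rw [Units.val_mul (heckeDiagMatrix ℓ * heckeMatrix ℓ 0) x,
    Units.val_mul x (heckeDiagMatrix ℓ * heckeMatrix ℓ 0), hs, smul_mul_assoc, one_mul,
    mul_smul_comm, mul_one]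

end Scalar

/-! ### The adjointness -/

section Main

variable {N ℓ : ℕ} [NeZero N] [Fact ℓ.Prime]

theorem det_mapGL_pos (c : SL(2, ℤ)) : 0 < ((mapGL ℝ c : GL (Fin 2) ℝ).det : ℝ) := by
  simp

theorem countable_SL2Z_adj : Countable SL(2, ℤ) := by
  haveI : Countable (Matrix (Fin 2) (Fin 2) ℤ) := by
    unfold Matrix
    infer_instance
  exact Function.Injective.countable (f := fun g : SL(2, ℤ) => (g : Matrix (Fin 2) (Fin 2) ℤ))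
    (fun _ _ h => Subtype.ext h)

/-- **Self-adjointness of `T_ℓ`, `ℓ ∤ N`, for the Petersson integral against a partition.** -/
theorem integral_petersson_heckeT_adjoint (hℓ : ℓ.Prime) (hℓN : ¬ ℓ ∣ N)
    {ψ : ℍ → ℝ≥0∞} (hψ : IsPartition ((mapGL ℝ).comp (Gamma0 N).subtype) ψ)
    (hfin : ∫⁻ z, ψ z ≠ ∞)
    (a : OnePoint (ZMod ℓ) → Gamma0 N)
    (hA : ∀ x, ∃ c : Gamma0 N, heckeDiagMatrix ℓ * mapGL ℝ (a x : SL(2, ℤ)) =
      mapGL ℝ (c : SL(2, ℤ)) * heckeRep ℓ x)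
    (ΦA : OnePoint (ZMod ℓ) × Gamma0 (N * ℓ) ≃ Gamma0 N)
    (hΦA : ∀ (x : OnePoint (ZMod ℓ)) (γ' : Gamma0 (N * ℓ)),
      (mapGL ℝ (a x : SL(2, ℤ)) : GL (Fin 2) ℝ)⁻¹ * mapGL ℝ (γ' : SL(2, ℤ)) =
      mapGL ℝ (ΦA (x, γ') : SL(2, ℤ)))
    (b : OnePoint (ZMod ℓ) → Gamma0 N) (τ : Equiv.Perm (OnePoint (ZMod ℓ)))
    (hB : ∀ y, ∃ c : Gamma0 N, heckeMatrix ℓ 0 * mapGL ℝ (b y : SL(2, ℤ)) =
      mapGL ℝ (c : SL(2, ℤ)) * heckeRep ℓ (τ y))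
    (ΦB : OnePoint (ZMod ℓ) × Gamma0 (N * ℓ) ≃ Gamma0 N)
    (hΦB : ∀ (y : OnePoint (ZMod ℓ)) (γ' : Gamma0 (N * ℓ)),
      (mapGL ℝ (b y : SL(2, ℤ)) : GL (Fin 2) ℝ)⁻¹ * heckeDiagMatrix ℓ *
        mapGL ℝ (γ' : SL(2, ℤ)) = mapGL ℝ (ΦB (y, γ') : SL(2, ℤ)) * heckeDiagMatrix ℓ)
    (f g : CuspForm (Gamma0 N) 2) :
    ∫ z, petersson 2 ⇑(CuspForm.heckeTLin 2 hℓ hℓN f) ⇑g z * ((ψ z).toReal : ℂ) =
      ∫ z, petersson 2 ⇑f ⇑(CuspForm.heckeTLin 2 hℓ hℓN g) z * ((ψ z).toReal : ℂ) := by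
  have hℓ0 : ℓ ≠ 0 := hℓ.ne_zero
  haveI : NeZero ℓ := ⟨hℓ0⟩
  haveI := countable_SL2Z_adj
  haveI : Countable (Gamma0 (N * ℓ)) := inferInstance
  -- invariance of `f`, `g`
  have hfinv : ∀ c : Gamma0 N,
      ⇑f ∣[(2 : ℤ)] (mapGL ℝ (c : SL(2, ℤ)) : GL (Fin 2) ℝ) = ⇑f := fun c =>
    SlashInvariantFormClass.slash_action_eq f _ (Subgroup.mem_map_of_mem (mapGL ℝ) c.2)
  have hginv : ∀ c : Gamma0 N,
      ⇑g ∣[(2 : ℤ)] (mapGL ℝ (c : SL(2, ℤ)) : GL (Fin 2) ℝ) = ⇑g := fun c =>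
    SlashInvariantFormClass.slash_action_eq g _ (Subgroup.mem_map_of_mem (mapGL ℝ) c.2)
  -- the function `H`
  set H : ℍ → ℂ := petersson 2 (⇑f ∣[(2 : ℤ)] heckeDiagMatrix ℓ) ⇑g with hH
  -- (PA)
  have PA : ∀ x z, petersson 2 (⇑f ∣[(2 : ℤ)] heckeRep ℓ x) ⇑g z =
      H ((mapGL ℝ (a x : SL(2, ℤ)) : GL (Fin 2) ℝ) • z) := by
    intro x z
    obtain ⟨c, hc⟩ := hA x
    have h1 : ⇑f ∣[(2 : ℤ)] heckeRep ℓ x =
        (⇑f ∣[(2 : ℤ)] heckeDiagMatrix ℓ) ∣[(2 : ℤ)] (mapGL ℝ (a x : SL(2, ℤ)) : GL (Fin 2) ℝ) := by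
      rw [← SlashAction.slash_mul, hc, SlashAction.slash_mul, hfinv c]
    have h2 : petersson 2 (⇑f ∣[(2 : ℤ)] heckeRep ℓ x) ⇑g z =
        petersson 2 ((⇑f ∣[(2 : ℤ)] heckeDiagMatrix ℓ) ∣[(2 : ℤ)]
          (mapGL ℝ (a x : SL(2, ℤ)) : GL (Fin 2) ℝ))
          (⇑g ∣[(2 : ℤ)] (mapGL ℝ (a x : SL(2, ℤ)) : GL (Fin 2) ℝ)) z := by
      rw [h1, hginv (a x)]
    rw [h2, petersson_two_slash _ _ _ (det_mapGL_pos _)]
  -- (PB)
  have key : ∀ w, petersson 2 ⇑f (⇑g ∣[(2 : ℤ)] heckeMatrix ℓ 0) w = H (heckeMatrix ℓ 0 • w) := by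
    intro w
    have h1 : petersson 2 ⇑f (⇑g ∣[(2 : ℤ)] heckeMatrix ℓ 0) w =
        petersson 2 ((⇑f ∣[(2 : ℤ)] heckeDiagMatrix ℓ) ∣[(2 : ℤ)] heckeMatrix ℓ 0)
          (⇑g ∣[(2 : ℤ)] heckeMatrix ℓ 0) w := by
      rw [slash_heckeDiag_heckeMatrix_zero hℓ0]
    rw [h1, petersson_two_slash _ _ _ (det_heckeMatrix_pos ℓ 0)]
  have PB : ∀ y z, petersson 2 ⇑f (⇑g ∣[(2 : ℤ)] heckeRep ℓ (τ y)) z =
      H ((heckeMatrix ℓ 0 * (mapGL ℝ (b y : SL(2, ℤ)) : GL (Fin 2) ℝ)) • z) := by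
    intro y z
    obtain ⟨c, hc⟩ := hB y
    have h1 : ⇑g ∣[(2 : ℤ)] heckeRep ℓ (τ y) =
        (⇑g ∣[(2 : ℤ)] heckeMatrix ℓ 0) ∣[(2 : ℤ)] (mapGL ℝ (b y : SL(2, ℤ)) : GL (Fin 2) ℝ) := by
      rw [← SlashAction.slash_mul, hc, SlashAction.slash_mul, hginv c]
    have h2 : petersson 2 ⇑f (⇑g ∣[(2 : ℤ)] heckeRep ℓ (τ y)) z =
        petersson 2 (⇑f ∣[(2 : ℤ)] (mapGL ℝ (b y : SL(2, ℤ)) : GL (Fin 2) ℝ))
          ((⇑g ∣[(2 : ℤ)] heckeMatrix ℓ 0) ∣[(2 : ℤ)]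
            (mapGL ℝ (b y : SL(2, ℤ)) : GL (Fin 2) ℝ)) z := by
      rw [h1, hfinv (b y)]
    rw [h2, petersson_two_slash _ _ _ (det_mapGL_pos _), key, mul_smul]
  -- `H` is continuous, bounded and `Γ₀(Nℓ)`-invariant
  have hfδ_cont : Continuous (⇑f ∣[(2 : ℤ)] heckeDiagMatrix ℓ) := by
    have : (⇑f ∣[(2 : ℤ)] heckeDiagMatrix ℓ) =
        fun z => (ℓ : ℂ) ^ ((2 : ℤ) - 1) * f (heckeDiagMatrix ℓ • z) := by
      funext z
      exact slash_heckeDiagMatrix_apply 2 hℓ0 ⇑f z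
    rw [this]
    exact continuous_const.mul ((CuspFormClass.holo f).continuous.comp (continuous_const_smul _))
  have hHcont : Continuous H := petersson_continuous 2 hfδ_cont (CuspFormClass.holo g).continuous
  have hHm : Measurable H := hHcont.measurable
  obtain ⟨Cf, hCf⟩ := CuspFormClass.petersson_bounded_left 2
    (Gamma0 N : Subgroup (GL (Fin 2) ℝ)) f f
  obtain ⟨Cg, hCg⟩ := CuspFormClass.petersson_bounded_left 2
    (Gamma0 N : Subgroup (GL (Fin 2) ℝ)) g g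
  have hHb : ∀ z, ‖H z‖ ≤ (Cf + Cg) / 2 := by
    intro z
    refine (norm_petersson_le 2 _ _ z).trans ?_
    have h1 : ‖petersson 2 (⇑f ∣[(2 : ℤ)] heckeDiagMatrix ℓ)
        (⇑f ∣[(2 : ℤ)] heckeDiagMatrix ℓ) z‖ ≤ Cf := by
      rw [petersson_two_slash _ _ _ (det_heckeDiagMatrix_pos ℓ)]
      exact hCf _
    have h2 := hCg z
    linarith
  have hHinv : ∀ (γ' : Gamma0 (N * ℓ)) (z : ℍ),
      H (((mapGL ℝ).comp (Gamma0 (N * ℓ)).subtype) γ' • z) = H z := by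
    intro γ' z
    show H ((mapGL ℝ (γ' : SL(2, ℤ)) : GL (Fin 2) ℝ) • z) = H z
    let pt : OnePoint (ZMod ℓ) := OnePoint.infty
    have hy := hΦB pt γ'
    have hx := hΦA pt γ'
    -- `mapGL γ' = mapGL (a ∞ * ΦA (∞, γ'))`
    have e1 : (mapGL ℝ (γ' : SL(2, ℤ)) : GL (Fin 2) ℝ) =
        mapGL ℝ ((a pt * ΦA (pt, γ') : Gamma0 N) : SL(2, ℤ)) := by
      rw [Subgroup.coe_mul, map_mul, ← hx, mul_inv_cancel_left]
    -- `δ * mapGL γ' = mapGL (b ∞ * ΦB (∞, γ')) * δ`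
    have e2 : heckeDiagMatrix ℓ * (mapGL ℝ (γ' : SL(2, ℤ)) : GL (Fin 2) ℝ) =
        mapGL ℝ ((b pt * ΦB (pt, γ') : Gamma0 N) : SL(2, ℤ)) * heckeDiagMatrix ℓ := by
      rw [Subgroup.coe_mul, map_mul, mul_assoc, ← hy, mul_assoc, mul_inv_cancel_left]
    rw [hH, ← petersson_two_slash _ _ _ (det_mapGL_pos _)]
    congr 1
    · rw [← SlashAction.slash_mul, e2, SlashAction.slash_mul, hfinv]
    · rw [e1, hginv]
  -- the two sides as sums of shifted integrals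
  have hint : ∀ u : GL (Fin 2) ℝ, Integrable (fun z => H (u • z) * ((ψ z).toReal : ℂ)) := fun u =>
    hψ.integrable_mul hfin (measurable_comp_smul hHm u) (fun z => hHb _)
  have hL : ∫ z, petersson 2 ⇑(CuspForm.heckeTLin 2 hℓ hℓN f) ⇑g z * ((ψ z).toReal : ℂ) =
      ∑ x, ∫ z, H (((mapGL ℝ (a x : SL(2, ℤ)) : GL (Fin 2) ℝ)⁻¹)⁻¹ • z) * ((ψ z).toReal : ℂ) := by
    rw [← integral_finsetSum _ (fun x _ => by rw [inv_inv]; exact hint _)]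
    refine integral_congr_ae (Filter.Eventually.of_forall fun z => ?_)
    simp only
    rw [CuspForm.coe_heckeTLin_apply, heckeT_eq_sum_onePoint, petersson_sum_left, Finset.sum_mul]
    refine Finset.sum_congr rfl fun x _ => ?_
    rw [PA, inv_inv]
  have hR : ∫ z, petersson 2 ⇑f ⇑(CuspForm.heckeTLin 2 hℓ hℓN g) z * ((ψ z).toReal : ℂ) =
      ∑ y, ∫ z, H (((heckeMatrix ℓ 0 * (mapGL ℝ (b y : SL(2, ℤ)) : GL (Fin 2) ℝ))⁻¹)⁻¹ • z) *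
        ((ψ z).toReal : ℂ) := by
    rw [← integral_finsetSum _ (fun x _ => by rw [inv_inv]; exact hint _)]
    refine integral_congr_ae (Filter.Eventually.of_forall fun z => ?_)
    simp only
    rw [CuspForm.coe_heckeTLin_apply, heckeT_eq_sum_onePoint, petersson_sum_right, Finset.sum_mul,
      ← Equiv.sum_comp τ]
    refine Finset.sum_congr rfl fun y _ => ?_
    rw [PB, inv_inv]
  rw [hL, hR]
  -- transfer
  refine hψ.sum_integral_eq hfin ((mapGL ℝ).comp (Gamma0 (N * ℓ)).subtype)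
    (fun x => (mapGL ℝ (a x : SL(2, ℤ)) : GL (Fin 2) ℝ)⁻¹) 1 ΦA ?_
    (fun y => (heckeMatrix ℓ 0 * (mapGL ℝ (b y : SL(2, ℤ)) : GL (Fin 2) ℝ))⁻¹)
    (heckeMatrix ℓ 0)⁻¹ ΦB ?_ hHm ⟨_, hHb⟩ hHinv
  · intro x γ'
    show (mapGL ℝ (a x : SL(2, ℤ)) : GL (Fin 2) ℝ)⁻¹ * mapGL ℝ (γ' : SL(2, ℤ)) =
      mapGL ℝ (ΦA (x, γ') : SL(2, ℤ)) * 1
    rw [mul_one, hΦA]
  · intro y γ'
    show (heckeMatrix ℓ 0 * (mapGL ℝ (b y : SL(2, ℤ)) : GL (Fin 2) ℝ))⁻¹ *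
        mapGL ℝ (γ' : SL(2, ℤ)) = mapGL ℝ (ΦB (y, γ') : SL(2, ℤ)) * (heckeMatrix ℓ 0)⁻¹
    -- `δ'⁻¹ = s⁻¹ δ` with `s = δ δ'` central
    set s : GL (Fin 2) ℝ := heckeDiagMatrix ℓ * heckeMatrix ℓ 0 with hs
    have hcomm : ∀ x : GL (Fin 2) ℝ, s * x = x * s := heckeDiag_mul_heckeMatrix_zero_comm hℓ0
    have hinv' : (heckeMatrix ℓ 0)⁻¹ = s⁻¹ * heckeDiagMatrix ℓ := by
      rw [hs, mul_inv_rev, mul_assoc, inv_mul_cancel, mul_one]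
    have hcomm' : ∀ x : GL (Fin 2) ℝ, s⁻¹ * x = x * s⁻¹ := fun x => by
      rw [eq_mul_inv_iff_mul_eq, mul_assoc, ← hcomm, ← mul_assoc, inv_mul_cancel, one_mul]
    rw [mul_inv_rev, hinv', ← mul_assoc, ← mul_assoc, ← hcomm', mul_assoc (s⁻¹), mul_assoc (s⁻¹),
      hΦB y γ', hcomm', mul_assoc, ← hcomm' (heckeDiagMatrix ℓ), mul_assoc]

end Main

end Fermat.Agent.S31lib.PET
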