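/-
S31lib / PET / CosetA (helper1): P4a of the Petersson block.
The coset decomposition `Γ₀(N) = ⊔_{x ∈ P¹(𝔽_ℓ)} g_x⁻¹ Γ₀(N ℓ)` (`ℓ ∤ N`) as an explicit bijection.
-/
import Mathlib
import Fermat.Agent.S29lib.H.AlphaNorm
import Fermat.Agent.S16lib.LH.Cosets

set_option autoImplicit false
set_option linter.unusedSectionVars false

noncomputable section

namespace Fermat.Agent.S31lib.PET

open UpperHalfPlane Matrix.SpecialLinearGroup CongruenceSubgroup ModularForm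
open Fermat.Agent.S16lib.LH Fermat.Agent.S29lib.H
open P2MW.S_ModularForm_heckeT_slash_eq_self_of_mem_Gamma0.ModularForm.HeckeSlashInvariance
open scoped MatrixGroups

variable {N ℓ : ℕ} [NeZero N] [Fact ℓ.Prime] (hℓN : ¬ ℓ ∣ N)

/-- the inclusion `Γ₀(N ℓ) → Γ₀(N)` -/
def inclMul (N ℓ : ℕ) [NeZero N] [Fact ℓ.Prime] : ↥(Gamma0 (N * ℓ)) →* ↥(Gamma0 N) :=
  Subgroup.inclusion (Gamma0_mul_le N ℓ)

@[simp] theorem coe_inclMul (γ : ↥(Gamma0 (N * ℓ))) :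
    ((inclMul N ℓ γ : ↥(Gamma0 N)) : SL(2, ℤ)) = (γ : SL(2, ℤ)) := rfl

theorem tPerm_inclMul (γ : ↥(Gamma0 (N * ℓ))) :
    tPerm ℓ (inclMul N ℓ γ) OnePoint.infty = OnePoint.infty :=
  tPerm_infty_of_mem_Gamma0_mul _ γ.2

/-- `Γ₀(N) = ⊔_x g_x⁻¹ Γ₀(N ℓ)` -/
def PhiA : OnePoint (ZMod ℓ) × ↥(Gamma0 (N * ℓ)) ≃ ↥(Gamma0 N) where
  toFun p := (alphaRep hℓN p.1)⁻¹ * inclMul N ℓ p.2
  invFun γ := (tPerm ℓ γ⁻¹ OnePoint.infty,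
    ⟨((alphaRep hℓN (tPerm ℓ γ⁻¹ OnePoint.infty) * γ : ↥(Gamma0 N)) : SL(2, ℤ)), by
      apply mem_Gamma0_mul_of_tPerm hℓN
      rw [tPerm_mul, tPerm_alphaRep, tPerm_apply_inv]⟩)
  left_inv := by
    rintro ⟨x, γ'⟩
    have hx : tPerm ℓ ((alphaRep hℓN x)⁻¹ * inclMul N ℓ γ')⁻¹ OnePoint.infty = x := by
      rw [mul_inv_rev, inv_inv, tPerm_mul, ← map_inv, tPerm_inclMul, tPerm_alphaRep]
    refine Prod.ext hx ?_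
    apply Subtype.ext
    simp only [hx, coe_inclMul, mul_inv_cancel_left]
  right_inv := by
    intro γ
    apply Subtype.ext
    simp only [Subgroup.coe_mul, Subgroup.coe_inv, coe_inclMul, inv_mul_cancel_left]

@[simp] theorem PhiA_apply (x : OnePoint (ZMod ℓ)) (γ' : ↥(Gamma0 (N * ℓ))) :
    PhiA hℓN (x, γ') = (alphaRep hℓN x)⁻¹ * inclMul N ℓ γ' := rfl

/-- `(mapGL g_x)⁻¹ · mapGL γ' = mapGL (Φ_A (x, γ'))` -/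
theorem mapGL_PhiA (x : OnePoint (ZMod ℓ)) (γ' : ↥(Gamma0 (N * ℓ))) :
    (mapGL ℝ ((alphaRep hℓN x : ↥(Gamma0 N)) : SL(2, ℤ)) : GL (Fin 2) ℝ)⁻¹ *
        (mapGL ℝ (γ' : SL(2, ℤ)) : GL (Fin 2) ℝ) =
      (mapGL ℝ ((PhiA hℓN (x, γ') : ↥(Gamma0 N)) : SL(2, ℤ)) : GL (Fin 2) ℝ) := by
  rw [PhiA_apply, Subgroup.coe_mul, Subgroup.coe_inv, coe_inclMul, map_mul, map_inv]

/-- `δ · g_x = c_x · δ_x` with `c_x ∈ Γ₀(N)` -/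
theorem heckeDiag_mul_alphaRep (x : OnePoint (ZMod ℓ)) :
    heckeDiagMatrix ℓ * (mapGL ℝ ((alphaRep hℓN x : ↥(Gamma0 N)) : SL(2, ℤ)) : GL (Fin 2) ℝ) =
      (mapGL ℝ ((tCoc hℓN (alphaRep hℓN x) OnePoint.infty : ↥(Gamma0 N)) : SL(2, ℤ)) :
        GL (Fin 2) ℝ) * heckeRep ℓ x := by
  have h := tCoc_rel hℓN (alphaRep hℓN x) OnePoint.infty
  rw [tPerm_alphaRep] at h
  exact h

theorem exists_heckeDiag_mul_alphaRep (x : OnePoint (ZMod ℓ)) :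
    ∃ c : ↥(Gamma0 N),
      heckeDiagMatrix ℓ * (mapGL ℝ ((alphaRep hℓN x : ↥(Gamma0 N)) : SL(2, ℤ)) : GL (Fin 2) ℝ) =
        (mapGL ℝ ((c : ↥(Gamma0 N)) : SL(2, ℤ)) : GL (Fin 2) ℝ) * heckeRep ℓ x :=
  ⟨_, heckeDiag_mul_alphaRep hℓN x⟩

/-- `δ · γ' = c · δ` with `c ∈ Γ₀(N)`, for `γ' ∈ Γ₀(N ℓ)` -/
theorem heckeDiag_mul_inclMul (γ' : ↥(Gamma0 (N * ℓ))) :
    heckeDiagMatrix ℓ * (mapGL ℝ (γ' : SL(2, ℤ)) : GL (Fin 2) ℝ) =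
      (mapGL ℝ ((tCoc hℓN (inclMul N ℓ γ') OnePoint.infty : ↥(Gamma0 N)) : SL(2, ℤ)) :
        GL (Fin 2) ℝ) * heckeDiagMatrix ℓ := by
  have h := tCoc_rel hℓN (inclMul N ℓ γ') OnePoint.infty
  rw [tPerm_inclMul] at h
  exact h

end Fermat.Agent.S31lib.PET
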