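/-
S31lib / PET / CosetB  (helper3).

The second coset family for the adjointness of `T_ℓ` (ℓ prime, ℓ ∤ N):
with `δ = heckeDiagMatrix ℓ = diag(ℓ, 1)`,

* `conjD : Γ₀(Nℓ) → Γ₀(N)`, `(a b; c d) ↦ (a ℓb; c/ℓ d)`, so that `δ γ' = conjD γ' δ`;
* `bRep : ℙ¹(𝔽_ℓ) → Γ₀(N)`, `b_j = (1 j; 0 1)`, `b_∞ = (ℓ v; N u)` with `ℓ u - N v = 1`;
* `PhiB : ℙ¹(𝔽_ℓ) × Γ₀(Nℓ) ≃ Γ₀(N)`, `(y, γ') ↦ b_y⁻¹ conjD γ'`;
* `diag(1, ℓ) b_y = c_y heckeRep ℓ y` with `c_y ∈ Γ₀(N)`;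
* scalar matrices act trivially in weight `2`.
-/
import Mathlib
import Fermat.Prelude.Def_ModularForm_HeckeOperator
import Fermat.Prelude.Sol.S_ModularForm_heckeT_slash_eq_self_of_mem_Gamma0

set_option autoImplicit false
set_option linter.unusedSectionVars false
set_option linter.unusedVariables false

noncomputable section

namespace Fermat.Agent.S31lib.PET

open Matrix.SpecialLinearGroup CongruenceSubgroup UpperHalfPlane ModularForm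
open P2MW.S_ModularForm_heckeT_slash_eq_self_of_mem_Gamma0.ModularForm.HeckeSlashInvariance
  (heckeRep heckeRep_infty heckeRep_coe)
open scoped MatrixGroups ModularForm OnePoint

namespace CosetB

/-- an explicit element of `SL(2, ℤ)` -/
def mk (a b c d : ℤ) (h : a * d - b * c = 1) : SL(2, ℤ) :=
  ⟨!![a, b; c, d], by rw [Matrix.det_fin_two_of]; exact h⟩

@[simp] theorem mk_00 (a b c d : ℤ) (h : a * d - b * c = 1) : mk a b c d h 0 0 = a := rfl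
@[simp] theorem mk_01 (a b c d : ℤ) (h : a * d - b * c = 1) : mk a b c d h 0 1 = b := rfl
@[simp] theorem mk_10 (a b c d : ℤ) (h : a * d - b * c = 1) : mk a b c d h 1 0 = c := rfl
@[simp] theorem mk_11 (a b c d : ℤ) (h : a * d - b * c = 1) : mk a b c d h 1 1 = d := rfl

theorem det_eq (g : SL(2, ℤ)) : g 0 0 * g 1 1 - g 0 1 * g 1 0 = 1 := by
  have h := g.det_coe
  rwa [Matrix.det_fin_two] at h

theorem ext_entries {g h : SL(2, ℤ)} (h00 : g 0 0 = h 0 0) (h01 : g 0 1 = h 0 1)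
    (h10 : g 1 0 = h 1 0) (h11 : g 1 1 = h 1 1) : g = h := by
  ext i j
  fin_cases i <;> fin_cases j <;> assumption

theorem mul_00 (g h : SL(2, ℤ)) : (g * h) 0 0 = g 0 0 * h 0 0 + g 0 1 * h 1 0 := by
  simp [Matrix.mul_apply, Fin.sum_univ_two]
theorem mul_01 (g h : SL(2, ℤ)) : (g * h) 0 1 = g 0 0 * h 0 1 + g 0 1 * h 1 1 := by
  simp [Matrix.mul_apply, Fin.sum_univ_two]
theorem mul_10 (g h : SL(2, ℤ)) : (g * h) 1 0 = g 1 0 * h 0 0 + g 1 1 * h 1 0 := by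
  simp [Matrix.mul_apply, Fin.sum_univ_two]
theorem mul_11 (g h : SL(2, ℤ)) : (g * h) 1 1 = g 1 0 * h 0 1 + g 1 1 * h 1 1 := by
  simp [Matrix.mul_apply, Fin.sum_univ_two]

theorem inv_00 (g : SL(2, ℤ)) : (g⁻¹) 0 0 = g 1 1 := by
  simp [Matrix.SpecialLinearGroup.coe_inv, Matrix.adjugate_fin_two]
theorem inv_01 (g : SL(2, ℤ)) : (g⁻¹) 0 1 = - g 0 1 := by
  simp [Matrix.SpecialLinearGroup.coe_inv, Matrix.adjugate_fin_two]
theorem inv_10 (g : SL(2, ℤ)) : (g⁻¹) 1 0 = - g 1 0 := by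
  simp [Matrix.SpecialLinearGroup.coe_inv, Matrix.adjugate_fin_two]
theorem inv_11 (g : SL(2, ℤ)) : (g⁻¹) 1 1 = g 0 0 := by
  simp [Matrix.SpecialLinearGroup.coe_inv, Matrix.adjugate_fin_two]

theorem mem_Gamma0_iff_dvd {N : ℕ} (g : SL(2, ℤ)) : g ∈ Gamma0 N ↔ (N : ℤ) ∣ g 1 0 := by
  rw [Gamma0_mem, ZMod.intCast_zmod_eq_zero_iff_dvd]

end CosetB

open CosetB

variable {N ℓ : ℕ}

/-! ### The conjugation `conjD : Γ₀(Nℓ) → Γ₀(N)` -/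

theorem dvd_of_mem_Gamma0_mul {g : SL(2, ℤ)} (hg : g ∈ Gamma0 (N * ℓ)) :
    ((N : ℤ) * (ℓ : ℤ)) ∣ g 1 0 := by
  have := (mem_Gamma0_iff_dvd g).mp hg
  exact_mod_cast this

/-- the underlying `SL(2, ℤ)`-matrix of `conjD` -/
def conjDSL (ℓ : ℕ) (g : SL(2, ℤ)) (h : (ℓ : ℤ) ∣ g 1 0) : SL(2, ℤ) :=
  mk (g 0 0) (ℓ * g 0 1) (g 1 0 / ℓ) (g 1 1) (by
    obtain ⟨e, he⟩ := h
    have hdet := det_eq g
    rcases eq_or_ne (ℓ : ℤ) 0 with h0 | h0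
    · rw [h0, zero_mul] at he
      rw [h0, he]
      simp only [zero_mul, Int.zero_ediv, sub_zero]
      rw [he] at hdet
      linarith
    · rw [he, Int.mul_ediv_cancel_left _ h0]
      rw [he] at hdet
      linear_combination hdet)

@[simp] theorem conjDSL_00 (g : SL(2, ℤ)) (h : (ℓ : ℤ) ∣ g 1 0) :
    conjDSL ℓ g h 0 0 = g 0 0 := rfl
@[simp] theorem conjDSL_01 (g : SL(2, ℤ)) (h : (ℓ : ℤ) ∣ g 1 0) :
    conjDSL ℓ g h 0 1 = ℓ * g 0 1 := rfl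
@[simp] theorem conjDSL_11 (g : SL(2, ℤ)) (h : (ℓ : ℤ) ∣ g 1 0) :
    conjDSL ℓ g h 1 1 = g 1 1 := rfl

theorem conjDSL_mul_10 (g : SL(2, ℤ)) (h : (ℓ : ℤ) ∣ g 1 0) :
    (ℓ : ℤ) * conjDSL ℓ g h 1 0 = g 1 0 :=
  Int.mul_ediv_cancel' h

theorem conjDSL_mem [NeZero ℓ] {g : SL(2, ℤ)} (hg : g ∈ Gamma0 (N * ℓ)) :
    conjDSL ℓ g ((dvd_mul_left _ _).trans (dvd_of_mem_Gamma0_mul hg)) ∈ Gamma0 N := by
  rw [mem_Gamma0_iff_dvd]
  have h1 := conjDSL_mul_10 g ((dvd_mul_left _ _).trans (dvd_of_mem_Gamma0_mul hg))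
  have h2 := dvd_of_mem_Gamma0_mul hg
  generalize conjDSL ℓ g _ 1 0 = e at h1 ⊢
  rw [← h1, mul_comm (ℓ : ℤ) e] at h2
  exact Int.dvd_of_mul_dvd_mul_right (by exact_mod_cast NeZero.ne ℓ) h2

/-- conjugation by `diag(ℓ, 1)`: `(a b; c d) ↦ (a ℓb; c/ℓ d)` -/
def conjD (N ℓ : ℕ) [NeZero ℓ] (γ : Gamma0 (N * ℓ)) : Gamma0 N :=
  ⟨conjDSL ℓ γ.1 ((dvd_mul_left _ _).trans (dvd_of_mem_Gamma0_mul γ.2)), conjDSL_mem γ.2⟩

theorem heckeDiagMatrix_mul_mapGL_SL [NeZero ℓ] (g : SL(2, ℤ)) (h : (ℓ : ℤ) ∣ g 1 0) :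
    heckeDiagMatrix ℓ * mapGL ℝ g = mapGL ℝ (conjDSL ℓ g h) * heckeDiagMatrix ℓ := by
  have hℓ : ℓ ≠ 0 := NeZero.ne ℓ
  have h10 := conjDSL_mul_10 g h
  ext i j
  fin_cases i <;> fin_cases j <;>
    simp [hℓ, Matrix.mul_apply, Fin.sum_univ_two]
  all_goals first
    | (have := congrArg (Int.cast : ℤ → ℝ) h10; push_cast at this ⊢; linear_combination this)
    | (have := congrArg (Int.cast : ℤ → ℝ) h10; push_cast at this ⊢; linear_combination -this)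
    | ring1

/-- `δ γ' = conjD γ' δ` for `δ = diag(ℓ, 1)` -/
theorem heckeDiagMatrix_mul_mapGL [NeZero ℓ] (γ : Gamma0 (N * ℓ)) :
    heckeDiagMatrix ℓ * mapGL ℝ (γ : SL(2, ℤ)) =
      mapGL ℝ ((conjD N ℓ γ : Gamma0 N) : SL(2, ℤ)) * heckeDiagMatrix ℓ :=
  heckeDiagMatrix_mul_mapGL_SL _ ((dvd_mul_left _ _).trans (dvd_of_mem_Gamma0_mul γ.2))

/-! ### The representatives `bRep` -/

/-- Bezout coefficient `u` with `ℓ u - N v = 1` -/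
def bezU (ℓ N : ℕ) : ℤ := Int.gcdA ℓ N
/-- Bezout coefficient `v` with `ℓ u - N v = 1` -/
def bezV (ℓ N : ℕ) : ℤ := - Int.gcdB ℓ N

theorem bez_eq (hcop : Nat.Coprime ℓ N) : (ℓ : ℤ) * bezU ℓ N - bezV ℓ N * N = 1 := by
  have h := Int.gcd_eq_gcd_ab (ℓ : ℤ) (N : ℤ)
  rw [Int.gcd_natCast_natCast, hcop.gcd_eq_one] at h
  simp only [bezU, bezV]
  push_cast at h
  linear_combination -h

/-- the `SL(2, ℤ)`-matrix `b_y`: `b_j = (1 j; 0 1)`, `b_∞ = (ℓ v; N u)` -/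
def bRepSL (hcop : Nat.Coprime ℓ N) (y : OnePoint (ZMod ℓ)) : SL(2, ℤ) :=
  y.elim (mk ℓ (bezV ℓ N) N (bezU ℓ N) (bez_eq hcop))
    (fun j => mk 1 (j.val : ℤ) 0 1 (by ring))

@[simp] theorem bRepSL_infty (hcop : Nat.Coprime ℓ N) :
    bRepSL hcop (∞ : OnePoint (ZMod ℓ)) = mk ℓ (bezV ℓ N) N (bezU ℓ N) (bez_eq hcop) := rfl

@[simp] theorem bRepSL_coe (hcop : Nat.Coprime ℓ N) (j : ZMod ℓ) :
    bRepSL hcop (j : OnePoint (ZMod ℓ)) = mk 1 (j.val : ℤ) 0 1 (by ring) := rfl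

theorem bRepSL_mem (hcop : Nat.Coprime ℓ N) (y : OnePoint (ZMod ℓ)) :
    bRepSL hcop y ∈ Gamma0 N := by
  rw [mem_Gamma0_iff_dvd]
  induction y using OnePoint.rec with
  | infty => simp
  | coe j => simp

/-- the representatives `b_y ∈ Γ₀(N)` -/
def bRep (hcop : Nat.Coprime ℓ N) (y : OnePoint (ZMod ℓ)) : Gamma0 N :=
  ⟨bRepSL hcop y, bRepSL_mem hcop y⟩

/-! ### The coset of an element -/

section prime

variable [Fact ℓ.Prime]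

/-- the index `y` with `b_y g ∈ conjD (Γ₀(Nℓ))` -/
def yOf (ℓ : ℕ) (g : SL(2, ℤ)) : OnePoint (ZMod ℓ) :=
  if ((g 1 1 : ℤ) : ZMod ℓ) = 0 then ∞
  else ((-((g 0 1 : ℤ) : ZMod ℓ) * (((g 1 1 : ℤ) : ZMod ℓ))⁻¹ : ZMod ℓ) : OnePoint (ZMod ℓ))

theorem bezV_ne_zero (hcop : Nat.Coprime ℓ N) : ((bezV ℓ N : ℤ) : ZMod ℓ) ≠ 0 := by
  intro h
  have := congrArg (Int.cast : ℤ → ZMod ℓ) (bez_eq (N := N) hcop)
  push_cast at this
  rw [h, ZMod.natCast_self] at this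
  simp at this

theorem dvd_bRepSL_mul_iff (hcop : Nat.Coprime ℓ N) (g : SL(2, ℤ)) (y : OnePoint (ZMod ℓ)) :
    (ℓ : ℤ) ∣ (bRepSL hcop y * g) 0 1 ↔ y = yOf ℓ g := by
  have hdet := congrArg (Int.cast : ℤ → ZMod ℓ) (det_eq g)
  push_cast at hdet
  rw [← ZMod.intCast_zmod_eq_zero_iff_dvd, mul_01]
  induction y using OnePoint.rec with
  | infty =>
    rw [bRepSL_infty, mk_00, mk_01]
    push_cast
    rw [ZMod.natCast_self, zero_mul, zero_add, mul_eq_zero]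
    unfold yOf
    constructor
    · rintro (h | h)
      · exact absurd h (bezV_ne_zero hcop)
      · rw [if_pos h]
    · intro h
      by_cases h0 : ((g 1 1 : ℤ) : ZMod ℓ) = 0
      · exact Or.inr h0
      · rw [if_neg h0] at h
        exact absurd h (OnePoint.infty_ne_coe _)
  | coe j =>
    rw [bRepSL_coe, mk_00, mk_01]
    push_cast
    rw [ZMod.natCast_zmod_val, one_mul]
    unfold yOf
    by_cases h0 : ((g 1 1 : ℤ) : ZMod ℓ) = 0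
    · rw [if_pos h0, h0, mul_zero, add_zero]
      constructor
      · intro h
        rw [h0, h] at hdet
        simp at hdet
      · intro h
        exact absurd h (OnePoint.coe_ne_infty _)
    · rw [if_neg h0, OnePoint.coe_eq_coe]
      constructor
      · intro h
        field_simp
        linear_combination h
      · intro h
        rw [h]
        field_simp
        ring

/-- the underlying function of `PhiB`: `(y, γ') ↦ b_y⁻¹ conjD γ'` -/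
def PhiBfun (hcop : Nat.Coprime ℓ N) [NeZero ℓ] (p : OnePoint (ZMod ℓ) × Gamma0 (N * ℓ)) :
    Gamma0 N :=
  (bRep hcop p.1)⁻¹ * conjD N ℓ p.2

theorem bRepSL_mul_PhiBfun (hcop : Nat.Coprime ℓ N) [NeZero ℓ]
    (p : OnePoint (ZMod ℓ) × Gamma0 (N * ℓ)) :
    bRepSL hcop p.1 * ((PhiBfun hcop p : Gamma0 N) : SL(2, ℤ)) =
      ((conjD N ℓ p.2 : Gamma0 N) : SL(2, ℤ)) := by
  have : bRep hcop p.1 * PhiBfun hcop p = conjD N ℓ p.2 := by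
    simp [PhiBfun]
  exact congrArg Subtype.val this

theorem yOf_PhiBfun (hcop : Nat.Coprime ℓ N) [NeZero ℓ]
    (p : OnePoint (ZMod ℓ) × Gamma0 (N * ℓ)) :
    yOf ℓ ((PhiBfun hcop p : Gamma0 N) : SL(2, ℤ)) = p.1 := by
  symm
  rw [← dvd_bRepSL_mul_iff hcop, bRepSL_mul_PhiBfun]
  exact ⟨_, rfl⟩

theorem conjD_injective [NeZero ℓ] : Function.Injective (conjD N ℓ) := by
  intro γ₁ γ₂ h
  have h' : ((conjD N ℓ γ₁ : Gamma0 N) : SL(2, ℤ)) = ((conjD N ℓ γ₂ : Gamma0 N) : SL(2, ℤ)) :=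
    congrArg Subtype.val h
  have hℓ : (ℓ : ℤ) ≠ 0 := by exact_mod_cast NeZero.ne ℓ
  have e00 := congrArg (fun g : SL(2, ℤ) => g 0 0) h'
  have e01 := congrArg (fun g : SL(2, ℤ) => g 0 1) h'
  have e10 := congrArg (fun g : SL(2, ℤ) => (ℓ : ℤ) * g 1 0) h'
  have e11 := congrArg (fun g : SL(2, ℤ) => g 1 1) h'
  simp only [conjD, conjDSL_00, conjDSL_01, conjDSL_11, conjDSL_mul_10] at e00 e01 e10 e11
  apply Subtype.ext
  exact ext_entries e00 (mul_left_cancel₀ hℓ e01) e10 e11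

theorem PhiBfun_injective (hcop : Nat.Coprime ℓ N) [NeZero ℓ] :
    Function.Injective (PhiBfun (N := N) (ℓ := ℓ) hcop) := by
  rintro ⟨y₁, γ₁⟩ ⟨y₂, γ₂⟩ h
  have hy : y₁ = y₂ := by
    have h1 := yOf_PhiBfun hcop (y₁, γ₁)
    have h2 := yOf_PhiBfun hcop (y₂, γ₂)
    rw [h] at h1
    exact h1.symm.trans h2
  subst hy
  have : conjD N ℓ γ₁ = conjD N ℓ γ₂ := by
    simpa [PhiBfun] using h
  rw [conjD_injective this]

theorem PhiBfun_surjective (hcop : Nat.Coprime ℓ N) [NeZero ℓ] :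
    Function.Surjective (PhiBfun (N := N) (ℓ := ℓ) hcop) := by
  intro g
  have hℓ : (ℓ : ℤ) ≠ 0 := by exact_mod_cast NeZero.ne ℓ
  set y := yOf ℓ (g : SL(2, ℤ)) with hy
  set h : Gamma0 N := bRep hcop y * g with hh
  have hdvd : (ℓ : ℤ) ∣ (h : SL(2, ℤ)) 0 1 := (dvd_bRepSL_mul_iff hcop (g : SL(2, ℤ)) y).mpr hy
  have hN : (N : ℤ) ∣ (h : SL(2, ℤ)) 1 0 := (mem_Gamma0_iff_dvd _).mp h.2
  obtain ⟨e, he⟩ := hdvd
  have hdet := det_eq (h : SL(2, ℤ))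
  let γSL : SL(2, ℤ) := mk ((h : SL(2, ℤ)) 0 0) e (ℓ * (h : SL(2, ℤ)) 1 0) ((h : SL(2, ℤ)) 1 1)
    (by rw [he] at hdet; linear_combination hdet)
  have hγmem : γSL ∈ Gamma0 (N * ℓ) := by
    rw [mem_Gamma0_iff_dvd]
    simp only [γSL, mk_10]
    push_cast
    rw [mul_comm (N : ℤ)]
    exact mul_dvd_mul_left _ hN
  refine ⟨(y, ⟨γSL, hγmem⟩), ?_⟩
  have hconj : conjD N ℓ ⟨γSL, hγmem⟩ = h := by
    apply Subtype.ext
    apply ext_entries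
    · simp [conjD, γSL]
    · simp [conjD, γSL, he]
    · apply mul_left_cancel₀ hℓ
      simp only [conjD]
      rw [conjDSL_mul_10]
      simp [γSL]
    · simp [conjD, γSL]
  simp only [PhiBfun, hconj, hh]
  group

/-- **The coset bijection** `ℙ¹(𝔽_ℓ) × Γ₀(Nℓ) ≃ Γ₀(N)`, `(y, γ') ↦ b_y⁻¹ conjD γ'`. -/
def PhiB (hcop : Nat.Coprime ℓ N) [NeZero ℓ] : OnePoint (ZMod ℓ) × Gamma0 (N * ℓ) ≃ Gamma0 N :=
  Equiv.ofBijective (PhiBfun hcop) ⟨PhiBfun_injective hcop, PhiBfun_surjective hcop⟩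

theorem PhiB_apply (hcop : Nat.Coprime ℓ N) [NeZero ℓ] (y : OnePoint (ZMod ℓ))
    (γ : Gamma0 (N * ℓ)) : PhiB hcop (y, γ) = (bRep hcop y)⁻¹ * conjD N ℓ γ := rfl

/-- the relation feeding `IsPartition.of_family` / `IsPartition.sum_integral_eq`:
`u₂ y = (b_y)⁻¹ δ`, `t₂ = δ`. -/
theorem PhiB_rel (hcop : Nat.Coprime ℓ N) [NeZero ℓ] (y : OnePoint (ZMod ℓ))
    (γ : Gamma0 (N * ℓ)) :
    ((mapGL ℝ ((bRep hcop y : Gamma0 N) : SL(2, ℤ)))⁻¹ * heckeDiagMatrix ℓ) *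
        mapGL ℝ (γ : SL(2, ℤ)) =
      mapGL ℝ ((PhiB hcop (y, γ) : Gamma0 N) : SL(2, ℤ)) * heckeDiagMatrix ℓ := by
  rw [mul_assoc, heckeDiagMatrix_mul_mapGL, PhiB_apply, ← mul_assoc]
  simp

end prime

/-! ### The relation `diag(1, ℓ) b_y = c_y heckeRep ℓ y` -/

/-- the correction factor: `c_j = 1`, `c_∞ = (1 v; N ℓu)` -/
def cRepSL (hcop : Nat.Coprime ℓ N) (y : OnePoint (ZMod ℓ)) : SL(2, ℤ) :=
  y.elim (mk 1 (bezV ℓ N) N (ℓ * bezU ℓ N) (by linear_combination bez_eq hcop)) (fun _ => 1)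

theorem cRepSL_mem (hcop : Nat.Coprime ℓ N) (y : OnePoint (ZMod ℓ)) :
    cRepSL hcop y ∈ Gamma0 N := by
  induction y using OnePoint.rec with
  | infty =>
    rw [mem_Gamma0_iff_dvd]
    simp [cRepSL]
  | coe j => exact one_mem _

/-- the correction factors `c_y ∈ Γ₀(N)` -/
def cRep (hcop : Nat.Coprime ℓ N) (y : OnePoint (ZMod ℓ)) : Gamma0 N :=
  ⟨cRepSL hcop y, cRepSL_mem hcop y⟩

/-- `diag(1, ℓ) b_y = c_y heckeRep ℓ y` -/
theorem heckeMatrix_zero_mul_bRep (hcop : Nat.Coprime ℓ N) [NeZero ℓ] (y : OnePoint (ZMod ℓ)) :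
    heckeMatrix ℓ 0 * mapGL ℝ ((bRep hcop y : Gamma0 N) : SL(2, ℤ)) =
      mapGL ℝ ((cRep hcop y : Gamma0 N) : SL(2, ℤ)) * heckeRep ℓ y := by
  have hℓ : ℓ ≠ 0 := NeZero.ne ℓ
  induction y using OnePoint.rec with
  | infty =>
    rw [heckeRep_infty]
    ext i j
    fin_cases i <;> fin_cases j <;>
      simp [bRep, cRep, cRepSL, hℓ, Matrix.mul_apply, Fin.sum_univ_two] <;> ring
  | coe j =>
    rw [heckeRep_coe]
    ext i k
    fin_cases i <;> fin_cases k <;>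
      simp [bRep, cRep, cRepSL, hℓ, Matrix.mul_apply, Fin.sum_univ_two]

/-! ### Scalar matrices act trivially in weight `2` -/

theorem det_of_scalar (g : GL (Fin 2) ℝ) (c : ℝ)
    (hg : (g : Matrix (Fin 2) (Fin 2) ℝ) = c • (1 : Matrix (Fin 2) (Fin 2) ℝ)) :
    g.det.val = c * c := by
  rw [Matrix.GeneralLinearGroup.val_det_apply, hg, Matrix.det_fin_two]
  simp

theorem smul_of_scalar (g : GL (Fin 2) ℝ) (c : ℝ) (hc : c ≠ 0)
    (hg : (g : Matrix (Fin 2) (Fin 2) ℝ) = c • (1 : Matrix (Fin 2) (Fin 2) ℝ)) (z : ℍ) :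
    g • z = z := by
  have hdet : 0 < g.det.val := by
    rw [det_of_scalar g c hg]
    exact mul_self_pos.mpr hc
  have hc' : (c : ℂ) ≠ 0 := by exact_mod_cast hc
  ext
  rw [coe_smul_of_det_pos hdet]
  simp only [num, denom, hg]
  simp
  field_simp

theorem slash_two_of_scalar (g : GL (Fin 2) ℝ) (c : ℝ) (hc : c ≠ 0)
    (hg : (g : Matrix (Fin 2) (Fin 2) ℝ) = c • (1 : Matrix (Fin 2) (Fin 2) ℝ)) (f : ℍ → ℂ) :
    f ∣[(2 : ℤ)] g = f := by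
  have hdet : 0 < g.det.val := by
    rw [det_of_scalar g c hg]
    exact mul_self_pos.mpr hc
  have hc' : (c : ℂ) ≠ 0 := by exact_mod_cast hc
  ext z
  rw [ModularForm.slash_apply, smul_of_scalar g c hc hg, σ, if_pos hdet,
    det_of_scalar g c hg, abs_of_pos (mul_self_pos.mpr hc)]
  simp only [denom, hg]
  simp
  field_simp

theorem heckeMatrix_zero_mul_heckeDiagMatrix [NeZero ℓ] :
    ((heckeMatrix ℓ 0 * heckeDiagMatrix ℓ : GL (Fin 2) ℝ) : Matrix (Fin 2) (Fin 2) ℝ) =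
      (ℓ : ℝ) • (1 : Matrix (Fin 2) (Fin 2) ℝ) := by
  have hℓ : ℓ ≠ 0 := NeZero.ne ℓ
  ext i j
  fin_cases i <;> fin_cases j <;>
    simp [hℓ, Matrix.mul_apply, Fin.sum_univ_two]

/-- in weight `2`, `diag(1, ℓ)` acts as `diag(ℓ, 1)⁻¹` -/
theorem slash_heckeMatrix_zero [NeZero ℓ] (f : ℍ → ℂ) :
    f ∣[(2 : ℤ)] heckeMatrix ℓ 0 = f ∣[(2 : ℤ)] (heckeDiagMatrix ℓ)⁻¹ := by
  have hℓ : (ℓ : ℝ) ≠ 0 := by exact_mod_cast NeZero.ne ℓ
  have h := slash_two_of_scalar (heckeMatrix ℓ 0 * heckeDiagMatrix ℓ) ℓ hℓ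
    heckeMatrix_zero_mul_heckeDiagMatrix f
  calc f ∣[(2 : ℤ)] heckeMatrix ℓ 0
      = f ∣[(2 : ℤ)] ((heckeMatrix ℓ 0 * heckeDiagMatrix ℓ) * (heckeDiagMatrix ℓ)⁻¹) := by
        rw [mul_inv_cancel_right]
    _ = f ∣[(2 : ℤ)] (heckeDiagMatrix ℓ)⁻¹ := by rw [SlashAction.slash_mul, h]

/-- Möbius action: `diag(1, ℓ) • z = diag(ℓ, 1)⁻¹ • z` -/
theorem heckeMatrix_zero_smul [NeZero ℓ] (z : ℍ) :
    heckeMatrix ℓ 0 • z = (heckeDiagMatrix ℓ)⁻¹ • z := by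
  have hℓ : (ℓ : ℝ) ≠ 0 := by exact_mod_cast NeZero.ne ℓ
  have h := smul_of_scalar (heckeMatrix ℓ 0 * heckeDiagMatrix ℓ) ℓ hℓ
    heckeMatrix_zero_mul_heckeDiagMatrix ((heckeDiagMatrix ℓ)⁻¹ • z)
  rw [mul_smul, smul_inv_smul] at h
  exact h

end Fermat.Agent.S31lib.PET
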