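/-
S31lib, block PET, piece P3 (helper8): positivity and definiteness of the Petersson integrand.

For a holomorphic `f : ℍ → ℂ` and a weight function `ψ : ℍ → ℝ≥0∞` that does not vanish on a
nonempty open set, `∫ petersson k f f * ψ = 0` forces `f = 0`.
-/
import Mathlib

set_option autoImplicit false

open UpperHalfPlane MeasureTheory
open scoped ENNReal Manifold Topology

noncomputable section

namespace Fermat.Agent.S31lib.PET

/-- The invariant measure of the upper half-plane is positive on nonempty open sets. -/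
theorem volume_pos_of_isOpen {U : Set ℍ} (hU : IsOpen U) (hne : U.Nonempty) :
    0 < (volume : Measure ℍ) U := by
  rw [volume_eq_lintegral]
  have hopen : IsOpen (UpperHalfPlane.coe '' U) := isOpenEmbedding_coe.isOpenMap U hU
  have hpos : 0 < (volume : Measure ℂ) (UpperHalfPlane.coe '' U) :=
    hopen.measure_pos volume (hne.image _)
  have hmeas : Measurable (fun z : ℂ => (((1 / ‖z.im‖₊) ^ 2 : NNReal) : ℝ≥0∞)) := by
    fun_prop
  rw [setLIntegral_pos_iff hmeas]
  refine lt_of_lt_of_le hpos (measure_mono ?_)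
  rintro _ ⟨z, hz, rfl⟩
  refine ⟨?_, ⟨z, hz, rfl⟩⟩
  simp only [Function.mem_support, ne_eq, ENNReal.coe_eq_zero]
  have h1 : ‖(z : ℂ).im‖₊ ≠ 0 := by
    rw [ne_eq, nnnorm_eq_zero]
    exact z.im_ne_zero
  positivity

/-- The Petersson integrand on the diagonal is real and nonnegative. -/
theorem petersson_self_eq (k : ℤ) (f : ℍ → ℂ) (z : ℍ) :
    petersson k f f z = ((‖f z‖ ^ 2 * z.im ^ k : ℝ) : ℂ) := by
  simp only [petersson, Complex.conj_mul']
  push_cast
  rfl

theorem petersson_self_mul_eq (k : ℤ) (f : ℍ → ℂ) (ψ : ℍ → ℝ≥0∞) (z : ℍ) :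
    petersson k f f z * ((ψ z).toReal : ℂ) = ((‖f z‖ ^ 2 * z.im ^ k * (ψ z).toReal : ℝ) : ℂ) := by
  rw [petersson_self_eq]
  push_cast
  rfl

theorem integral_petersson_self_eq (k : ℤ) (f : ℍ → ℂ) (ψ : ℍ → ℝ≥0∞) :
    ∫ z, petersson k f f z * ((ψ z).toReal : ℂ) =
      ((∫ z : ℍ, ‖f z‖ ^ 2 * z.im ^ k * (ψ z).toReal : ℝ) : ℂ) := by
  have h1 := integral_ofReal (μ := (volume : Measure ℍ)) (𝕜 := ℂ)
    (f := fun z : ℍ => ‖f z‖ ^ 2 * z.im ^ k * (ψ z).toReal)
  exact (integral_congr_ae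
    (Filter.Eventually.of_forall fun z => petersson_self_mul_eq k f ψ z)).trans h1

theorem petersson_integrand_nonneg (k : ℤ) (f : ℍ → ℂ) (ψ : ℍ → ℝ≥0∞) (z : ℍ) :
    0 ≤ ‖f z‖ ^ 2 * z.im ^ k * (ψ z).toReal := by
  have h1 : 0 < z.im ^ k := zpow_pos z.im_pos k
  have h2 : 0 ≤ (ψ z).toReal := ENNReal.toReal_nonneg
  positivity

/-- The diagonal Petersson integral has nonnegative real part. -/
theorem integral_petersson_self_re_nonneg (k : ℤ) (f : ℍ → ℂ) (ψ : ℍ → ℝ≥0∞) :
    0 ≤ (∫ z, petersson k f f z * ((ψ z).toReal : ℂ)).re := by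
  rw [integral_petersson_self_eq, Complex.ofReal_re]
  exact integral_nonneg fun z => petersson_integrand_nonneg k f ψ z

/-- The diagonal Petersson integral is real. -/
theorem integral_petersson_self_im (k : ℤ) (f : ℍ → ℂ) (ψ : ℍ → ℝ≥0∞) :
    (∫ z, petersson k f f z * ((ψ z).toReal : ℂ)).im = 0 := by
  rw [integral_petersson_self_eq, Complex.ofReal_im]

/-- **Definiteness.** -/
theorem eq_zero_of_integral_petersson_self_eq_zero {k : ℤ} {ψ : ℍ → ℝ≥0∞}
    {U : Set ℍ} (hU : IsOpen U) (hne : U.Nonempty) (hψU : ∀ z ∈ U, ψ z ≠ 0)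
    (hψtop : ∀ z, ψ z ≠ ∞) {f : ℍ → ℂ} (hf : MDifferentiable 𝓘(ℂ) 𝓘(ℂ) f)
    (hint : Integrable (fun z => petersson k f f z * ((ψ z).toReal : ℂ)))
    (h : ∫ z, petersson k f f z * ((ψ z).toReal : ℂ) = 0) : f = 0 := by
  -- the real integrand
  set F : ℍ → ℝ := fun z => ‖f z‖ ^ 2 * z.im ^ k * (ψ z).toReal with hF
  have hFint : Integrable F := by
    have h1 := hint.re
    refine h1.congr (Filter.Eventually.of_forall fun z => ?_)
    show (petersson k f f z * ((ψ z).toReal : ℂ)).re = F z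
    rw [petersson_self_mul_eq, Complex.ofReal_re]
  have hF0 : ∫ z, F z = 0 := by
    rw [integral_petersson_self_eq] at h
    exact_mod_cast h
  have hae : F =ᵐ[volume] 0 :=
    (integral_eq_zero_iff_of_nonneg (fun z => petersson_integrand_nonneg k f ψ z) hFint).mp hF0
  -- `f` vanishes on `U`
  have hcont : Continuous f := hf.continuous
  have hV : IsOpen (U ∩ {z | f z ≠ 0}) := hU.inter (isOpen_ne_fun hcont continuous_const)
  have hVnull : (volume : Measure ℍ) (U ∩ {z | f z ≠ 0}) = 0 := by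
    refine measure_mono_null ?_ hae
    rintro z ⟨hzU, hzf⟩
    show ¬ (F z = (0 : ℍ → ℝ) z)
    have h1 : 0 < ‖f z‖ ^ 2 := by
      have : 0 < ‖f z‖ := norm_pos_iff.mpr hzf
      positivity
    have h2 : 0 < z.im ^ k := zpow_pos z.im_pos k
    have h3 : 0 < (ψ z).toReal := ENNReal.toReal_pos (hψU z hzU) (hψtop z)
    have : 0 < F z := by positivity
    exact this.ne'
  have hVempty : U ∩ {z | f z ≠ 0} = ∅ := by
    by_contra hcon
    have := volume_pos_of_isOpen hV (Set.nonempty_iff_ne_empty.mpr hcon)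
    rw [hVnull] at this
    exact lt_irrefl _ this
  have hfU : ∀ z ∈ U, f z = 0 := by
    intro z hz
    by_contra hcon
    have : z ∈ U ∩ {z | f z ≠ 0} := ⟨hz, hcon⟩
    rw [hVempty] at this
    exact this
  -- the identity theorem
  obtain ⟨τ, hτ⟩ := hne
  apply UpperHalfPlane.eq_zero_of_frequently hf (τ := τ)
  have hev : ∀ᶠ z in 𝓝 τ, f z = 0 := by
    filter_upwards [hU.mem_nhds hτ] with z hz using hfU z hz
  exact (hev.filter_mono nhdsWithin_le_nhds).frequently

/-- Definiteness, for cusp forms. -/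
theorem cuspForm_eq_zero_of_integral_petersson_self_eq_zero {Γ : Subgroup (GL (Fin 2) ℝ)} {k : ℤ}
    {ψ : ℍ → ℝ≥0∞} {U : Set ℍ} (hU : IsOpen U) (hne : U.Nonempty) (hψU : ∀ z ∈ U, ψ z ≠ 0)
    (hψtop : ∀ z, ψ z ≠ ∞) (f : CuspForm Γ k)
    (hint : Integrable (fun z => petersson k (⇑f) (⇑f) z * ((ψ z).toReal : ℂ)))
    (h : ∫ z, petersson k (⇑f) (⇑f) z * ((ψ z).toReal : ℂ) = 0) : f = 0 := by
  apply DFunLike.coe_injective
  exact eq_zero_of_integral_petersson_self_eq_zero hU hne hψU hψtop (CuspForm.holo' f) hint h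

end Fermat.Agent.S31lib.PET
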