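/-
S31lib / PET / Reduced (helper2): P5 of the Petersson block.
From a positive definite Hermitian form `B` on `S₂(Γ₀(N))` for which all `T_ℓ` (`ℓ ∤ N`) are
self-adjoint: every element of the anemic Hecke algebra `heckeAlgebra N 2 S` (`S ⊇` primes of `N`)
is `B`-self-adjoint, hence the algebra has no nilpotents.
-/
import Mathlib
import Fermat.Prelude.Def_CuspForm_HeckeAlgebra

set_option autoImplicit false
set_option linter.unusedSectionVars false
set_option linter.unusedVariables false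

noncomputable section

namespace Fermat.Agent.S31lib.PET

open CuspForm

variable {N : ℕ} [NeZero N] {S : Set ℕ}

/-- `S₂(Γ₀(N))` -/
abbrev S2 (N : ℕ) : Type := CuspForm (CongruenceSubgroup.Gamma0 N) 2

section Form

variable (B : S2 N → S2 N → ℂ)

/-- `x` is self-adjoint for the form `B` -/
def IsSelfAdj (x : Module.End ℂ (S2 N)) : Prop := ∀ f g : S2 N, B (x f) g = B f (x g)

variable {B}

theorem form_add_left (hadd : ∀ f g h : S2 N, B f (g + h) = B f g + B f h)
    (hconj : ∀ f g : S2 N, B g f = starRingEnd ℂ (B f g)) (f g h : S2 N) :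
    B (f + g) h = B f h + B g h := by
  rw [hconj h (f + g), hadd, map_add, ← hconj, ← hconj]

theorem form_zero_right (hadd : ∀ f g h : S2 N, B f (g + h) = B f g + B f h) (f : S2 N) :
    B f 0 = 0 := by
  have h := hadd f 0 0
  rw [add_zero] at h
  exact left_eq_add.mp h

theorem form_zero_left (hadd : ∀ f g h : S2 N, B f (g + h) = B f g + B f h)
    (hconj : ∀ f g : S2 N, B g f = starRingEnd ℂ (B f g)) (f : S2 N) : B 0 f = 0 := by
  rw [hconj f 0, form_zero_right hadd, map_zero]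

theorem form_neg_right (hadd : ∀ f g h : S2 N, B f (g + h) = B f g + B f h) (f g : S2 N) :
    B f (-g) = - B f g := by
  have h := hadd f g (-g)
  rw [add_neg_cancel, form_zero_right hadd] at h
  exact eq_neg_of_add_eq_zero_right h.symm

theorem form_neg_left (hadd : ∀ f g h : S2 N, B f (g + h) = B f g + B f h)
    (hconj : ∀ f g : S2 N, B g f = starRingEnd ℂ (B f g)) (f g : S2 N) : B (-f) g = - B f g := by
  rw [hconj g (-f), form_neg_right hadd, map_neg, ← hconj]

namespace IsSelfAdj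

theorem one : IsSelfAdj B (1 : Module.End ℂ (S2 N)) := fun _ _ => rfl

theorem zero (hadd : ∀ f g h : S2 N, B f (g + h) = B f g + B f h)
    (hconj : ∀ f g : S2 N, B g f = starRingEnd ℂ (B f g)) : IsSelfAdj B (0 : Module.End ℂ (S2 N)) := by
  intro f g
  rw [LinearMap.zero_apply, LinearMap.zero_apply, form_zero_left hadd hconj,
    form_zero_right hadd]

theorem add (hadd : ∀ f g h : S2 N, B f (g + h) = B f g + B f h)
    (hconj : ∀ f g : S2 N, B g f = starRingEnd ℂ (B f g)) {x y : Module.End ℂ (S2 N)}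
    (hx : IsSelfAdj B x) (hy : IsSelfAdj B y) : IsSelfAdj B (x + y) := by
  intro f g
  rw [LinearMap.add_apply, LinearMap.add_apply, form_add_left hadd hconj, hadd, hx, hy]

theorem neg (hadd : ∀ f g h : S2 N, B f (g + h) = B f g + B f h)
    (hconj : ∀ f g : S2 N, B g f = starRingEnd ℂ (B f g)) {x : Module.End ℂ (S2 N)}
    (hx : IsSelfAdj B x) : IsSelfAdj B (-x) := by
  intro f g
  rw [LinearMap.neg_apply, LinearMap.neg_apply, form_neg_left hadd hconj, form_neg_right hadd, hx]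

theorem mul_of_commute {x y : Module.End ℂ (S2 N)} (hx : IsSelfAdj B x) (hy : IsSelfAdj B y)
    (hxy : Commute x y) : IsSelfAdj B (x * y) := by
  intro f g
  rw [Module.End.mul_apply, hx, hy, ← Module.End.mul_apply, hxy.eq]

theorem pow {x : Module.End ℂ (S2 N)} (hx : IsSelfAdj B x) (n : ℕ) : IsSelfAdj B (x ^ n) := by
  induction n with
  | zero => rw [pow_zero]; exact one
  | succ n ih => rw [pow_succ]; exact mul_of_commute ih hx (Commute.pow_self x n)

theorem intCast (hadd : ∀ f g h : S2 N, B f (g + h) = B f g + B f h)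
    (hconj : ∀ f g : S2 N, B g f = starRingEnd ℂ (B f g)) (n : ℤ) :
    IsSelfAdj B ((n : Module.End ℂ (S2 N))) := by
  induction n using Int.induction_on with
  | zero => rw [Int.cast_zero]; exact zero hadd hconj
  | succ n ih => rw [Int.cast_add, Int.cast_one]; exact add hadd hconj ih one
  | pred n ih =>
    rw [Int.cast_sub, Int.cast_one, sub_eq_add_neg]
    exact add hadd hconj ih (neg hadd hconj one)

/-- a `B`-self-adjoint nilpotent endomorphism is zero (`B` definite) -/
theorem eq_zero_of_isNilpotent (hadd : ∀ f g h : S2 N, B f (g + h) = B f g + B f h)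
    (hconj : ∀ f g : S2 N, B g f = starRingEnd ℂ (B f g)) (hdef : ∀ f : S2 N, B f f = 0 → f = 0)
    {x : Module.End ℂ (S2 N)} (hx : IsSelfAdj B x) (hnil : IsNilpotent x) : x = 0 := by
  -- halving: `x ^ (2 * m) = 0 → x ^ m = 0`
  have halve : ∀ m : ℕ, x ^ (2 * m) = 0 → x ^ m = 0 := by
    intro m hm
    refine LinearMap.ext fun f => ?_
    rw [LinearMap.zero_apply]
    apply hdef
    rw [hx.pow m, ← Module.End.mul_apply, ← pow_add, ← two_mul, hm, LinearMap.zero_apply,
      form_zero_right hadd]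
  -- `x ^ (2 ^ k) = 0` for some `k`, then descend
  obtain ⟨n, hn⟩ := hnil
  have hk : ∀ k : ℕ, x ^ (2 ^ k) = 0 → x = 0 := by
    intro k
    induction k with
    | zero => intro h; rwa [pow_zero, pow_one] at h
    | succ k ih => intro h; exact ih (halve _ (by rwa [pow_succ, mul_comm] at h))
  refine hk n ?_
  have hle : n ≤ 2 ^ n := Nat.lt_two_pow_self.le
  rw [← Nat.sub_add_cancel hle, pow_add, hn, mul_zero]

end IsSelfAdj

end Form

section Hecke

variable {B : S2 N → S2 N → ℂ}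

/-- **(E0)** every element of the anemic Hecke algebra is `B`-self-adjoint. -/
theorem selfAdjoint_of_mem (hadd : ∀ f g h : S2 N, B f (g + h) = B f g + B f h)
    (hconj : ∀ f g : S2 N, B g f = starRingEnd ℂ (B f g))
    (hadj : ∀ (ℓ : ℕ) (hℓ : ℓ.Prime) (hℓN : ¬ ℓ ∣ N) (f g : S2 N),
      B (CuspForm.heckeTLin 2 hℓ hℓN f) g = B f (CuspForm.heckeTLin 2 hℓ hℓN g))
    (hNS : ∀ q : ℕ, q.Prime → q ∣ N → q ∈ S) (x : CuspForm.heckeAlgebra N 2 S) :
    IsSelfAdj B (x : Module.End ℂ (S2 N)) := by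
  obtain ⟨x, hx⟩ := x
  show IsSelfAdj B x
  induction hx using Algebra.adjoin_induction with
  | mem y hy =>
    rcases hy with ⟨ℓ, hℓ, hℓN, -, rfl⟩ | ⟨q, hqN, hq, hqS, rfl⟩
    · exact hadj ℓ hℓ hℓN
    · exact absurd (hNS q hq hqN) hqS
  | algebraMap r =>
    have : (algebraMap ℤ (Module.End ℂ (S2 N)) r) = ((r : ℤ) : Module.End ℂ (S2 N)) := by
      simp
    rw [this]
    exact IsSelfAdj.intCast hadd hconj r
  | add y z hy hz ihy ihz => exact IsSelfAdj.add hadd hconj ihy ihz
  | mul y z hy hz ihy ihz =>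
    refine IsSelfAdj.mul_of_commute ihy ihz ?_
    have h := mul_comm (⟨y, hy⟩ : CuspForm.heckeAlgebra N 2 S) ⟨z, hz⟩
    exact congrArg Subtype.val h

/-- **(E1)** the anemic Hecke algebra has no nilpotents. -/
theorem eq_zero_of_isNilpotent (hadd : ∀ f g h : S2 N, B f (g + h) = B f g + B f h)
    (hconj : ∀ f g : S2 N, B g f = starRingEnd ℂ (B f g)) (hdef : ∀ f : S2 N, B f f = 0 → f = 0)
    (hadj : ∀ (ℓ : ℕ) (hℓ : ℓ.Prime) (hℓN : ¬ ℓ ∣ N) (f g : S2 N),
      B (CuspForm.heckeTLin 2 hℓ hℓN f) g = B f (CuspForm.heckeTLin 2 hℓ hℓN g))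
    (hNS : ∀ q : ℕ, q.Prime → q ∣ N → q ∈ S) (x : CuspForm.heckeAlgebra N 2 S)
    (hx : IsNilpotent x) : x = 0 := by
  apply Subtype.ext
  refine IsSelfAdj.eq_zero_of_isNilpotent hadd hconj hdef
    (selfAdjoint_of_mem hadd hconj hadj hNS x) ?_
  obtain ⟨n, hn⟩ := hx
  exact ⟨n, by simpa using congrArg Subtype.val hn⟩

/-- **(E1)**, instance form. -/
theorem isReduced_heckeAlgebra (hadd : ∀ f g h : S2 N, B f (g + h) = B f g + B f h)
    (hconj : ∀ f g : S2 N, B g f = starRingEnd ℂ (B f g)) (hdef : ∀ f : S2 N, B f f = 0 → f = 0)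
    (hadj : ∀ (ℓ : ℕ) (hℓ : ℓ.Prime) (hℓN : ¬ ℓ ∣ N) (f g : S2 N),
      B (CuspForm.heckeTLin 2 hℓ hℓN f) g = B f (CuspForm.heckeTLin 2 hℓ hℓN g))
    (hNS : ∀ q : ℕ, q.Prime → q ∣ N → q ∈ S) : IsReduced (CuspForm.heckeAlgebra N 2 S) :=
  ⟨fun x hx => eq_zero_of_isNilpotent hadd hconj hdef hadj hNS x hx⟩

end Hecke

end Fermat.Agent.S31lib.PET
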