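/-
S31lib / PET / Diag (helper2): P5 of the Petersson block, second half.
From a positive definite Hermitian form `B` on `S₂(Γ₀(N))` for which all `T_ℓ` (`ℓ ∤ N`) are
self-adjoint: the anemic Hecke algebra `heckeAlgebra N 2 S` (`S ⊇` primes of `N`) is simultaneously
diagonalisable: there is a basis of joint eigenvectors, with eigencharacters `χ i : 𝕋 →+* ℂ`.
-/
import Mathlib
import Fermat.Agent.S31lib.PET.Reduced
import Fermat.Agent.ProgramR.ES.Assembly

set_option autoImplicit false
set_option linter.unusedSectionVars false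
set_option linter.unusedVariables false
set_option linter.style.haveILetI false

noncomputable section

namespace Fermat.Agent.S31lib.PET

open CuspForm Module

variable {N : ℕ} [NeZero N] {S : Set ℕ}

/-- the inner product space core attached to a positive definite Hermitian form -/
@[instance_reducible]
def coreOfForm {B : S2 N → S2 N → ℂ}
    (hadd : ∀ f g h : S2 N, B f (g + h) = B f g + B f h)
    (hsmul : ∀ (c : ℂ) (f g : S2 N), B f (c • g) = c * B f g)
    (hconj : ∀ f g : S2 N, B g f = starRingEnd ℂ (B f g))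
    (hnonneg : ∀ f : S2 N, 0 ≤ (B f f).re) (hdef : ∀ f : S2 N, B f f = 0 → f = 0) :
    InnerProductSpace.Core ℂ (S2 N) where
  inner := B
  conj_inner_symm x y := (hconj y x).symm
  re_inner_nonneg := hnonneg
  add_left x y z := form_add_left hadd hconj x y z
  smul_left x y r := by
    rw [hconj y (r • x), hsmul, map_mul, ← hconj]
  definite := hdef

/-- **(E2)** simultaneous diagonalisation of the anemic Hecke algebra. -/
theorem exists_eigenbasis {B : S2 N → S2 N → ℂ}
    (hadd : ∀ f g h : S2 N, B f (g + h) = B f g + B f h)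
    (hsmul : ∀ (c : ℂ) (f g : S2 N), B f (c • g) = c * B f g)
    (hconj : ∀ f g : S2 N, B g f = starRingEnd ℂ (B f g))
    (hnonneg : ∀ f : S2 N, 0 ≤ (B f f).re) (hdef : ∀ f : S2 N, B f f = 0 → f = 0)
    (hadj : ∀ (ℓ : ℕ) (hℓ : ℓ.Prime) (hℓN : ¬ ℓ ∣ N) (f g : S2 N),
      B (CuspForm.heckeTLin 2 hℓ hℓN f) g = B f (CuspForm.heckeTLin 2 hℓ hℓN g))
    (hNS : ∀ q : ℕ, q.Prime → q ∣ N → q ∈ S) :
    ∃ (ι : Type) (_ : Fintype ι) (b : Basis ι ℂ (S2 N))
      (χ : ι → (CuspForm.heckeAlgebra N 2 S →+* ℂ)),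
      ∀ (i : ι) (x : CuspForm.heckeAlgebra N 2 S),
        (x : Module.End ℂ (S2 N)) (b i) = χ i x • b i := by
  classical
  haveI : FiniteDimensional ℂ (S2 N) := Fermat.Agent.ProgramR.ES.finiteDimensional_cuspForm N
  letI c : InnerProductSpace.Core ℂ (S2 N) := coreOfForm hadd hsmul hconj hnonneg hdef
  letI : NormedAddCommGroup (S2 N) := c.toNormedAddCommGroup
  letI : InnerProductSpace ℂ (S2 N) := InnerProductSpace.ofCore c.toCore
  -- the family
  let T : CuspForm.heckeAlgebra N 2 S → (S2 N →ₗ[ℂ] S2 N) := fun x => (x : Module.End ℂ (S2 N))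
  have hT : ∀ x, (T x).IsSymmetric := fun x f g => selfAdjoint_of_mem hadd hconj hadj hNS x f g
  have hC : Pairwise (Function.onFun Commute T) := fun x y _ => by
    have h := mul_comm x y
    exact congrArg Subtype.val h
  have htop := LinearMap.IsSymmetric.iSup_iInf_eq_top_of_commute hT hC
  -- the set of joint eigenvectors spans
  let W : (CuspForm.heckeAlgebra N 2 S → ℂ) → Submodule ℂ (S2 N) :=
    fun χ => ⨅ x, Module.End.eigenspace (T x) (χ x)
  let s : Set (S2 N) := {v | v ≠ 0 ∧ ∃ χ, v ∈ W χ}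
  have hspan : Submodule.span ℂ s = ⊤ := by
    rw [eq_top_iff, ← htop]
    refine iSup_le fun χ v hv => ?_
    by_cases hv0 : v = 0
    · rw [hv0]; exact Submodule.zero_mem _
    · exact Submodule.subset_span ⟨hv0, χ, hv⟩
  obtain ⟨t, hts, htspan, hli⟩ := exists_linearIndependent ℂ s
  have hb : ⊤ ≤ Submodule.span ℂ (Set.range (fun v : t => (v : S2 N))) := by
    rw [Subtype.range_coe, htspan, hspan]
  let b : Basis t ℂ (S2 N) := Basis.mk hli hb
  haveI : Fintype t := FiniteDimensional.fintypeBasisIndex b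
  have hbv : ∀ v : t, b v = (v : S2 N) := fun v => by simp [b]
  -- eigenvalues
  have hex : ∀ v : t, ∃ χ : CuspForm.heckeAlgebra N 2 S → ℂ, ∀ x, T x (v : S2 N) = χ x • (v : S2 N) := by
    intro v
    obtain ⟨-, χ, hχ⟩ := hts v.2
    refine ⟨χ, fun x => ?_⟩
    have := (Submodule.mem_iInf _).mp hχ x
    exact Module.End.mem_eigenspace_iff.mp this
  choose χ hχ using hex
  have hne : ∀ v : t, (v : S2 N) ≠ 0 := fun v => (hts v.2).1
  have hinj : ∀ (v : t) (a a' : ℂ), a • (v : S2 N) = a' • (v : S2 N) → a = a' := by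
    intro v a a' h
    exact smul_left_injective ℂ (hne v) h
  refine ⟨t, inferInstance, b, fun v =>
    { toFun := χ v
      map_one' := ?_
      map_mul' := ?_
      map_zero' := ?_
      map_add' := ?_ }, fun v x => ?_⟩
  · apply hinj v
    rw [← hχ v 1, one_smul]
    rfl
  · intro x y
    apply hinj v
    rw [← hχ v (x * y)]
    show ((x * y : CuspForm.heckeAlgebra N 2 S) : Module.End ℂ (S2 N)) (v : S2 N) = _
    rw [MulMemClass.coe_mul, Module.End.mul_apply]
    have h1 : (y : Module.End ℂ (S2 N)) (v : S2 N) = χ v y • (v : S2 N) := hχ v y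
    have h2 : (x : Module.End ℂ (S2 N)) (v : S2 N) = χ v x • (v : S2 N) := hχ v x
    rw [h1, map_smul, h2, smul_smul, mul_comm]
  · apply hinj v
    rw [← hχ v 0, zero_smul]
    rfl
  · intro x y
    apply hinj v
    rw [← hχ v (x + y), add_smul, ← hχ v x, ← hχ v y]
    rfl
  · rw [hbv]
    exact hχ v x

end Fermat.Agent.S31lib.PET
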