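/-
S31lib / PET / FdVolume  (helper6).

The standard fundamental domain `𝒟` of `SL(2, ℤ)` has finite hyperbolic volume:
`𝒟 ⊆ {|re z| ≤ 1/2, im z ≥ 1/2}` and `∫_{|x| ≤ 1/2} ∫_{y ≥ 1/2} dx dy / y² < ∞`.
-/
import Mathlib

set_option autoImplicit false

noncomputable section

namespace Fermat.Agent.S31lib.PET

open MeasureTheory ENNReal UpperHalfPlane ModularGroup Set
open scoped Modular MatrixGroups NNReal

/-- the density of the hyperbolic measure, as a function of the imaginary part -/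
def hypDensity (y : ℝ) : ℝ≥0∞ := ((1 / ‖y‖₊) ^ 2 : ℝ≥0)

theorem measurable_hypDensity : Measurable hypDensity := by
  unfold hypDensity
  fun_prop

theorem hypDensity_eq_ofReal {y : ℝ} (hy : 0 < y) :
    hypDensity y = ENNReal.ofReal (y ^ (-2 : ℝ)) := by
  have h0 : (0 : ℝ) ≤ y ^ (-2 : ℝ) := Real.rpow_nonneg hy.le _
  rw [ENNReal.ofReal_eq_coe_nnreal h0]
  unfold hypDensity
  congr 1
  apply NNReal.eq
  push_cast
  rw [Real.norm_of_nonneg hy.le, Real.rpow_neg hy.le, Real.rpow_two, one_div, inv_pow]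

theorem lintegral_Ici_hypDensity_lt_top :
    ∫⁻ y in Ici (1 / 2 : ℝ), hypDensity y < ∞ := by
  rw [setLIntegral_congr Ioi_ae_eq_Ici.symm]
  have h1 : ∫⁻ y in Ioi (1 / 2 : ℝ), hypDensity y =
      ∫⁻ y in Ioi (1 / 2 : ℝ), ENNReal.ofReal (y ^ (-2 : ℝ)) :=
    setLIntegral_congr_fun measurableSet_Ioi fun y hy =>
      hypDensity_eq_ofReal (lt_trans (by norm_num) (mem_Ioi.1 hy))
  rw [h1]
  have h2 : IntegrableOn (fun t : ℝ => t ^ (-2 : ℝ)) (Ioi (1 / 2 : ℝ)) :=
    integrableOn_Ioi_rpow_of_lt (by norm_num) (by norm_num)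
  exact h2.setLIntegral_lt_top

theorem lintegral_strip_lt_top :
    ∫⁻ p in Icc (-1 / 2 : ℝ) (1 / 2) ×ˢ Ici (1 / 2 : ℝ), hypDensity p.2
      ∂(volume : Measure (ℝ × ℝ)) < ∞ := by
  rw [Measure.volume_eq_prod, ← Measure.prod_restrict,
    lintegral_prod (fun p : ℝ × ℝ => hypDensity p.2)
      (measurable_hypDensity.comp measurable_snd).aemeasurable]
  simp only [lintegral_const, Measure.restrict_apply MeasurableSet.univ, univ_inter]
  refine ENNReal.mul_lt_top lintegral_Ici_hypDensity_lt_top ?_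
  rw [Real.volume_Icc]
  exact ENNReal.ofReal_lt_top

theorem fd_subset_strip :
    UpperHalfPlane.coe '' 𝒟 ⊆
      Complex.measurableEquivRealProd ⁻¹' (Icc (-1 / 2 : ℝ) (1 / 2) ×ˢ Ici (1 / 2 : ℝ)) := by
  rintro _ ⟨z, hz, rfl⟩
  have h3 := three_le_four_mul_im_sq_of_mem_fd hz
  have hre : |z.re| ≤ 1 / 2 := hz.2
  have him : (1 / 2 : ℝ) ≤ z.im := by
    by_contra hlt
    rw [not_le] at hlt
    have hpos := z.im_pos
    nlinarith
  simp only [mem_preimage, Complex.measurableEquivRealProd_apply, mem_prod, mem_Icc, mem_Ici]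
  refine ⟨⟨?_, ?_⟩, him⟩
  · have := (abs_le.1 hre).1
    show (-1 / 2 : ℝ) ≤ (z : ℂ).re
    rw [UpperHalfPlane.coe_re]; linarith
  · have := (abs_le.1 hre).2
    show (z : ℂ).re ≤ 1 / 2
    rw [UpperHalfPlane.coe_re]; linarith

/-- **The fundamental domain has finite hyperbolic volume.** -/
theorem volume_fd_lt_top : volume (𝒟 : Set ℍ) < ∞ := by
  rw [volume_eq_lintegral]
  have hstrip : MeasurableSet (Icc (-1 / 2 : ℝ) (1 / 2) ×ˢ Ici (1 / 2 : ℝ)) :=
    measurableSet_Icc.prod measurableSet_Ici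
  calc ∫⁻ z : ℂ in UpperHalfPlane.coe '' 𝒟, ((1 / ‖z.im‖₊) ^ 2 : ℝ≥0)
      ≤ ∫⁻ z : ℂ in Complex.measurableEquivRealProd ⁻¹'
          (Icc (-1 / 2 : ℝ) (1 / 2) ×ˢ Ici (1 / 2 : ℝ)),
          hypDensity (Complex.measurableEquivRealProd z).2 :=
        lintegral_mono_set fd_subset_strip
    _ = ∫⁻ p in Icc (-1 / 2 : ℝ) (1 / 2) ×ˢ Ici (1 / 2 : ℝ), hypDensity p.2 :=
        Complex.volume_preserving_equiv_real_prod.setLIntegral_comp_preimage hstrip
          (measurable_hypDensity.comp measurable_snd)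
    _ < ∞ := lintegral_strip_lt_top

end Fermat.Agent.S31lib.PET
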