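/-
S31lib / PET / PsiOne  (helper6).

A partition function for `SL(2, ℤ)` acting on `ℍ` (through `mapGL ℝ`), without fundamental-domain
theory: `ψ₁ := 1_𝒟 / n` where `𝒟 = ModularGroup.fd` is the (closed) standard fundamental domain
and `n z := #{g : SL(2, ℤ) | g • z ∈ 𝒟}` (counted in `ℝ≥0∞`), which is `SL(2, ℤ)`-invariant,
`≥ 1` (every orbit meets `𝒟`) and finite (Mathlib's classification
`ModularGroup.cases_of_mem_fd_smul_mem_fd`).
-/
import Mathlib
import Fermat.Agent.S31lib.PET.Transfer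

set_option autoImplicit false

noncomputable section

namespace Fermat.Agent.S31lib.PET

open MeasureTheory ENNReal UpperHalfPlane ModularGroup Matrix.SpecialLinearGroup
open scoped Modular MatrixGroups

/-- `SL(2, ℤ)` acting on `ℍ` through `GL (Fin 2) ℝ`. -/
def rhoSL : SL(2, ℤ) →* GL (Fin 2) ℝ := mapGL ℝ

theorem rhoSL_smul (g : SL(2, ℤ)) (z : ℍ) : rhoSL g • z = g • z := rfl

instance countable_SL2Z : Countable SL(2, ℤ) := by
  have : Countable (Matrix (Fin 2) (Fin 2) ℤ) := inferInstanceAs (Countable (Fin 2 → Fin 2 → ℤ))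
  exact (Subtype.countable : Countable {A : Matrix (Fin 2) (Fin 2) ℤ // A.det = 1})

/-- the indicator of the closed fundamental domain, with values in `ℝ≥0∞` -/
def fdInd (z : ℍ) : ℝ≥0∞ := Set.indicator 𝒟 (fun _ => (1 : ℝ≥0∞)) z

theorem fdInd_of_mem {z : ℍ} (hz : z ∈ 𝒟) : fdInd z = 1 := Set.indicator_of_mem hz _

theorem fdInd_of_notMem {z : ℍ} (hz : z ∉ 𝒟) : fdInd z = 0 := Set.indicator_of_notMem hz _

theorem fdInd_le_one (z : ℍ) : fdInd z ≤ 1 := by
  by_cases hz : z ∈ 𝒟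
  · rw [fdInd_of_mem hz]
  · rw [fdInd_of_notMem hz]; exact bot_le

theorem measurable_fdInd : Measurable fdInd :=
  measurable_const.indicator isClosed_fd.measurableSet

/-- the number of `g ∈ SL(2, ℤ)` with `g • z ∈ 𝒟` -/
def fdCount (z : ℍ) : ℝ≥0∞ := ∑' g : SL(2, ℤ), fdInd (g • z)

theorem measurable_fdCount : Measurable fdCount :=
  Measurable.tsum fun g =>
    measurable_fdInd.comp (measurable_const_smul (mapGL ℝ g : GL (Fin 2) ℝ))

theorem fdCount_smul (h : SL(2, ℤ)) (z : ℍ) : fdCount (h • z) = fdCount z := by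
  unfold fdCount
  rw [← (Equiv.mulRight h).tsum_eq (fun g => fdInd (g • z))]
  refine tsum_congr fun g => ?_
  rw [Equiv.coe_mulRight, mul_smul]

theorem one_le_fdCount (z : ℍ) : 1 ≤ fdCount z := by
  obtain ⟨g, hg⟩ := exists_smul_mem_fd z
  calc (1 : ℝ≥0∞) = fdInd (g • z) := (fdInd_of_mem hg).symm
    _ ≤ fdCount z := ENNReal.le_tsum g

theorem fdCount_ne_zero (z : ℍ) : fdCount z ≠ 0 :=
  (lt_of_lt_of_le one_pos (one_le_fdCount z)).ne'

/-- the finitely many elements that can move a point of `𝒟` into `𝒟` -/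
def fdMovers : Finset SL(2, ℤ) :=
  {1, -1, T, -T, T⁻¹, -T⁻¹, S, -S, T * S, -(T * S), T⁻¹ * S * T⁻¹, -(T⁻¹ * S * T⁻¹),
    S * T⁻¹, -(S * T⁻¹), S * T, -(S * T), T * S * T, -(T * S * T), T⁻¹ * S, -(T⁻¹ * S)}

theorem mem_fdMovers {g : SL(2, ℤ)} {z : ℍ} (hz : z ∈ 𝒟) (hg : g • z ∈ 𝒟) : g ∈ fdMovers := by
  have h := cases_of_mem_fd_smul_mem_fd hz hg
  simp only [fdMovers, Finset.mem_insert, Finset.mem_singleton]
  tauto

theorem fdCount_ne_top_of_mem {z : ℍ} (hz : z ∈ 𝒟) : fdCount z ≠ ∞ := by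
  unfold fdCount
  rw [tsum_eq_sum (s := fdMovers) (fun g hg => fdInd_of_notMem fun h => hg (mem_fdMovers hz h))]
  exact ENNReal.sum_ne_top.2 fun g _ => ne_top_of_le_ne_top one_ne_top (fdInd_le_one _)

theorem fdCount_ne_top (z : ℍ) : fdCount z ≠ ∞ := by
  obtain ⟨g, hg⟩ := exists_smul_mem_fd z
  rw [← fdCount_smul g z]
  exact fdCount_ne_top_of_mem hg

/-- the partition function of `SL(2, ℤ)` -/
def psiOne (z : ℍ) : ℝ≥0∞ := fdInd z / fdCount z

theorem measurable_psiOne : Measurable psiOne := measurable_fdInd.div measurable_fdCount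

theorem psiOne_le_fdInd (z : ℍ) : psiOne z ≤ fdInd z := by
  unfold psiOne
  exact ENNReal.div_le_of_le_mul' (by
    calc fdInd z = 1 * fdInd z := (one_mul _).symm
      _ ≤ fdCount z * fdInd z := by gcongr; exact one_le_fdCount z)

theorem psiOne_ne_zero_of_mem {z : ℍ} (hz : z ∈ 𝒟) : psiOne z ≠ 0 := by
  unfold psiOne
  rw [fdInd_of_mem hz]
  exact ENNReal.div_ne_zero.2 ⟨one_ne_zero, fdCount_ne_top z⟩

theorem isPartition_psiOne : IsPartition rhoSL psiOne where
  measurable := measurable_psiOne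
  tsum_eq := by
    intro z
    have h1 : ∀ g : SL(2, ℤ), psiOne (rhoSL g • z) = fdInd (g • z) * (fdCount z)⁻¹ := by
      intro g
      rw [rhoSL_smul]
      unfold psiOne
      rw [fdCount_smul, div_eq_mul_inv]
    simp_rw [h1]
    rw [ENNReal.tsum_mul_right]
    exact ENNReal.mul_inv_cancel (fdCount_ne_zero z) (fdCount_ne_top z)

end Fermat.Agent.S31lib.PET
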