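/-
S31lib / PET / ExistsPartition  (helper6).

Partition functions for `Γ₀(N)` acting on `ℍ`: `ψ_N(w) = ∑_{q ∈ SL(2,ℤ)/Γ₀(N)} ψ₁(r_q • w)` with
`ψ₁` the partition function of `SL(2, ℤ)` (`PsiOne.lean`) and `r_q` representatives of the left
cosets.  It has finite total mass (`≤ [SL(2,ℤ) : Γ₀(N)] · vol(𝒟)`) and does not vanish on a
nonempty open set.
-/
import Mathlib
import Fermat.Agent.S31lib.PET.PsiOne
import Fermat.Agent.S31lib.PET.FdVolume

set_option autoImplicit false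
set_option linter.style.haveILetI false

noncomputable section

namespace Fermat.Agent.S31lib.PET

open MeasureTheory ENNReal UpperHalfPlane ModularGroup Matrix.SpecialLinearGroup CongruenceSubgroup
open scoped Modular MatrixGroups

/-- `Γ₀(N)` acting on `ℍ` through `GL (Fin 2) ℝ`. -/
def rhoN (N : ℕ) : ↥(Gamma0 N) →* GL (Fin 2) ℝ := (mapGL ℝ).comp (Gamma0 N).subtype

theorem rhoN_apply (N : ℕ) (γ : ↥(Gamma0 N)) : rhoN N γ = mapGL ℝ (γ : SL(2, ℤ)) := rfl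

theorem rhoN_smul (N : ℕ) (γ : ↥(Gamma0 N)) (z : ℍ) : rhoN N γ • z = (γ : SL(2, ℤ)) • z := rfl

/-- the total mass of `ψ₁` is finite. -/
theorem lintegral_psiOne_ne_top : ∫⁻ z, psiOne z ≠ ∞ := by
  refine ne_top_of_le_ne_top volume_fd_lt_top.ne ?_
  calc ∫⁻ z, psiOne z ≤ ∫⁻ z, fdInd z := lintegral_mono psiOne_le_fdInd
    _ = volume (𝒟 : Set ℍ) := by
        unfold fdInd
        rw [lintegral_indicator isClosed_fd.measurableSet, setLIntegral_const, one_mul]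

section Coset

variable {G : Type*} [Group G] (H : Subgroup G)

/-- the bijection `(G ⧸ H) × H ≃ G`, `(q, h) ↦ q.out * h`. -/
def cosetProdEquiv : (G ⧸ H) × H ≃ G where
  toFun p := Quotient.out p.1 * (p.2 : G)
  invFun g := (QuotientGroup.mk g, ⟨(Quotient.out (QuotientGroup.mk g : G ⧸ H))⁻¹ * g,
    QuotientGroup.leftRel_apply.mp (Quotient.exact' (QuotientGroup.out_eq' _))⟩)
  left_inv := by
    rintro ⟨q, h⟩
    have h1 : (QuotientGroup.mk (Quotient.out q * (h : G)) : G ⧸ H) = q := by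
      rw [QuotientGroup.mk_mul_of_mem _ h.2, QuotientGroup.out_eq']
    refine Prod.ext h1 (Subtype.ext ?_)
    simp only [h1, inv_mul_cancel_left]
  right_inv := by
    intro g
    simp only [mul_inv_cancel_left]

theorem cosetProdEquiv_apply (q : G ⧸ H) (h : H) :
    cosetProdEquiv H (q, h) = Quotient.out q * (h : G) := rfl

end Coset

/-- the partition function of `Γ₀(N)` -/
def psiN (N : ℕ) (w : ℍ) : ℝ≥0∞ :=
  ∑' q : SL(2, ℤ) ⧸ Gamma0 N, psiOne ((mapGL ℝ (Quotient.out q) : GL (Fin 2) ℝ) • w)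

theorem isPartition_psiN (N : ℕ) [NeZero N] : IsPartition (rhoN N) (psiN N) := by
  haveI : Finite (SL(2, ℤ) ⧸ Gamma0 N) := Subgroup.finite_quotient_of_finiteIndex
  refine isPartition_psiOne.of_family (rhoN N)
    (fun q : SL(2, ℤ) ⧸ Gamma0 N => (mapGL ℝ (Quotient.out q) : GL (Fin 2) ℝ)) 1
    (cosetProdEquiv (Gamma0 N)) ?_
  intro q γ
  rw [mul_one, cosetProdEquiv_apply, rhoN_apply]
  exact (map_mul (mapGL ℝ) _ _).symm

theorem lintegral_psiN_ne_top (N : ℕ) [NeZero N] : ∫⁻ z, psiN N z ≠ ∞ := by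
  haveI : Finite (SL(2, ℤ) ⧸ Gamma0 N) := Subgroup.finite_quotient_of_finiteIndex
  haveI : Fintype (SL(2, ℤ) ⧸ Gamma0 N) := Fintype.ofFinite _
  exact lintegral_family_ne_top measurable_psiOne _ lintegral_psiOne_ne_top

/-- `ψ_N` does not vanish on the preimage of the open fundamental domain under the representative
of the trivial coset. -/
theorem psiN_ne_zero (N : ℕ) {w : ℍ}
    (hw : Quotient.out (QuotientGroup.mk 1 : SL(2, ℤ) ⧸ Gamma0 N) • w ∈ 𝒟ᵒ) : psiN N w ≠ 0 := by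
  intro h0
  have h1 := ENNReal.tsum_eq_zero.1 h0 (QuotientGroup.mk 1 : SL(2, ℤ) ⧸ Gamma0 N)
  exact psiOne_ne_zero_of_mem (fdo_subset_fd hw) h1

/-- **P2.** A partition function for `Γ₀(N)` of finite total mass which does not vanish on a
nonempty open set. -/
theorem exists_partition (N : ℕ) [NeZero N] :
    ∃ ψ : ℍ → ℝ≥0∞, IsPartition (rhoN N) ψ ∧ ∫⁻ z, ψ z ≠ ∞ ∧
      ∃ U : Set ℍ, IsOpen U ∧ U.Nonempty ∧ ∀ z ∈ U, ψ z ≠ 0 := by
  refine ⟨psiN N, isPartition_psiN N, lintegral_psiN_ne_top N, ?_⟩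
  set r : SL(2, ℤ) := Quotient.out (QuotientGroup.mk 1 : SL(2, ℤ) ⧸ Gamma0 N) with hr
  refine ⟨{w : ℍ | r • w ∈ 𝒟ᵒ}, ?_, ?_, fun w hw => psiN_ne_zero N hw⟩
  · exact isOpen_fdo.preimage (continuous_const_smul (mapGL ℝ r : GL (Fin 2) ℝ))
  · -- `2 i ∈ 𝒟ᵒ`, so `r⁻¹ • 2i` lies in the set
    have h2 : (⟨2 * Complex.I, by simp⟩ : ℍ) ∈ 𝒟ᵒ := by
      constructor
      · norm_num [Complex.normSq_apply]
      · simp [UpperHalfPlane.re]
    refine ⟨r⁻¹ • ⟨2 * Complex.I, by simp⟩, ?_⟩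
    show r • r⁻¹ • _ ∈ 𝒟ᵒ
    rw [smul_inv_smul]
    exact h2

end Fermat.Agent.S31lib.PET
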