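/-
S31lib / PET / Main  (helper6): the final glue of the Petersson block.

For a partition function `ψ` of `Γ₀(N)` of finite mass, not vanishing on a nonempty open set
(`ExistsPartition.lean`), the Petersson integral
`petInt ψ f g := ∫ petersson 2 f g · ψ dμ` is a positive definite Hermitian form on
`S₂(Γ₀(N))` (definiteness: helper8's `Definite.lean`) for which the Hecke operators `T_ℓ`, `ℓ ∤ N`,
are self-adjoint (helper2's `Adjoint.lean` with the coset families of helper1 `CosetA.lean` and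
helper3 `CosetB.lean`).  Hence the anemic Hecke algebra is reduced (helper2's `Reduced.lean`) and
simultaneously diagonalisable (`Diag.lean`).
-/
import Mathlib
import Fermat.Agent.S31lib.PET.ExistsPartition
import Fermat.Agent.S31lib.PET.Reduced
import Fermat.Agent.S31lib.PET.Diag
import Fermat.Agent.S31lib.PET.CosetA
import Fermat.Agent.S31lib.PET.CosetB
import Fermat.Agent.S31lib.PET.Adjoint
import Fermat.Agent.S31lib.PET.Definite

set_option autoImplicit false
set_option linter.style.haveILetI false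
set_option linter.unusedSectionVars false
set_option linter.deprecated false

noncomputable section

namespace Fermat.Agent.S31lib.PET

open MeasureTheory ENNReal UpperHalfPlane ModularGroup Matrix.SpecialLinearGroup CongruenceSubgroup
open Fermat.Agent.S16lib.LH Fermat.Agent.S29lib.H ModularForm
open P2MW.S_ModularForm_heckeT_slash_eq_self_of_mem_Gamma0.ModularForm.HeckeSlashInvariance
open scoped Modular MatrixGroups ComplexConjugate

variable {N : ℕ} [NeZero N]

/-- the Petersson integral of two cusp forms against a partition function -/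
def petInt (ψ : ℍ → ℝ≥0∞) (f g : S2 N) : ℂ :=
  ∫ z, petersson 2 ⇑f ⇑g z * ((ψ z).toReal : ℂ)

theorem measurable_petersson_cusp (f g : S2 N) : Measurable (petersson 2 ⇑f ⇑g) :=
  (petersson_continuous 2 (CuspFormClass.holo f).continuous
    (CuspFormClass.holo g).continuous).measurable

theorem petersson_cusp_bounded (f g : S2 N) : ∃ C : ℝ, ∀ z, ‖petersson 2 ⇑f ⇑g z‖ ≤ C := by
  obtain ⟨Cf, hCf⟩ := CuspFormClass.petersson_bounded_left 2
    (Gamma0 N : Subgroup (GL (Fin 2) ℝ)) f f
  obtain ⟨Cg, hCg⟩ := CuspFormClass.petersson_bounded_left 2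
    (Gamma0 N : Subgroup (GL (Fin 2) ℝ)) g g
  refine ⟨(Cf + Cg) / 2, fun z => (norm_petersson_le 2 _ _ z).trans ?_⟩
  have h1 := hCf z
  have h2 := hCg z
  linarith

variable {ψ : ℍ → ℝ≥0∞}

theorem integrable_petInt (hψ : IsPartition (rhoN N) ψ) (hfin : ∫⁻ z, ψ z ≠ ∞) (f g : S2 N) :
    Integrable (fun z => petersson 2 ⇑f ⇑g z * ((ψ z).toReal : ℂ)) := by
  obtain ⟨C, hC⟩ := petersson_cusp_bounded f g
  exact hψ.integrable_mul hfin (measurable_petersson_cusp f g) hC

theorem petInt_add_right (hψ : IsPartition (rhoN N) ψ) (hfin : ∫⁻ z, ψ z ≠ ∞) (f g h : S2 N) :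
    petInt ψ f (g + h) = petInt ψ f g + petInt ψ f h := by
  unfold petInt
  rw [← integral_add (integrable_petInt hψ hfin f g) (integrable_petInt hψ hfin f h)]
  refine integral_congr_ae (Filter.Eventually.of_forall fun z => ?_)
  simp only [petersson, CuspForm.coe_add, Pi.add_apply]
  ring

theorem petInt_smul_right (c : ℂ) (f g : S2 N) :
    petInt ψ f (c • g) = c * petInt ψ f g := by
  unfold petInt
  rw [← integral_const_mul]
  refine integral_congr_ae (Filter.Eventually.of_forall fun z => ?_)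
  simp only [petersson, CuspForm.coe_smul, Pi.smul_apply, smul_eq_mul]
  ring

theorem petInt_conj_symm (f g : S2 N) : petInt ψ g f = conj (petInt ψ f g) := by
  unfold petInt
  rw [← integral_conj]
  refine integral_congr_ae (Filter.Eventually.of_forall fun z => ?_)
  simp only [map_mul, Complex.conj_ofReal]
  rw [petersson_symm 2 ⇑f ⇑g z]

theorem petInt_self_re_nonneg (f : S2 N) : 0 ≤ (petInt ψ f f).re :=
  integral_petersson_self_re_nonneg 2 ⇑f ψ

theorem petInt_definite (hψ : IsPartition (rhoN N) ψ) (hfin : ∫⁻ z, ψ z ≠ ∞)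
    (hU : ∃ U : Set ℍ, IsOpen U ∧ U.Nonempty ∧ ∀ z ∈ U, ψ z ≠ 0) (f : S2 N)
    (h : petInt ψ f f = 0) : f = 0 := by
  obtain ⟨U, hUo, hne, hψU⟩ := hU
  exact cuspForm_eq_zero_of_integral_petersson_self_eq_zero hUo hne hψU
    (fun z => ((hψ.le_one z).trans_lt ENNReal.one_lt_top).ne) f (integrable_petInt hψ hfin f f) h

/-- **Self-adjointness of `T_ℓ`, `ℓ ∤ N`.** -/
theorem petInt_heckeT_adjoint (hψ : IsPartition (rhoN N) ψ) (hfin : ∫⁻ z, ψ z ≠ ∞)
    (ℓ : ℕ) (hℓ : ℓ.Prime) (hℓN : ¬ ℓ ∣ N) (f g : S2 N) :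
    petInt ψ (CuspForm.heckeTLin 2 hℓ hℓN f) g = petInt ψ f (CuspForm.heckeTLin 2 hℓ hℓN g) := by
  haveI : Fact ℓ.Prime := ⟨hℓ⟩
  haveI : NeZero ℓ := ⟨hℓ.ne_zero⟩
  have hcop : Nat.Coprime ℓ N := (Nat.Prime.coprime_iff_not_dvd hℓ).mpr hℓN
  exact integral_petersson_heckeT_adjoint hℓ hℓN hψ hfin (alphaRep hℓN)
    (exists_heckeDiag_mul_alphaRep hℓN) (PhiA hℓN) (mapGL_PhiA hℓN)
    (bRep hcop) (Equiv.refl _) (fun y => ⟨cRep hcop y, heckeMatrix_zero_mul_bRep hcop y⟩)
    (PhiB hcop) (PhiB_rel hcop) f g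

/-- **The anemic Hecke algebra of weight 2 and level `Γ₀(N)` is reduced.** -/
theorem isReduced_heckeAlgebra' {N : ℕ} [NeZero N] {S : Set ℕ}
    (hNS : ∀ q : ℕ, q.Prime → q ∣ N → q ∈ S) : IsReduced ↥(CuspForm.heckeAlgebra N 2 S) := by
  obtain ⟨ψ, hψ, hfin, hU⟩ := exists_partition N
  exact isReduced_heckeAlgebra (B := petInt ψ) (petInt_add_right hψ hfin)
    (fun f g => petInt_conj_symm f g) (petInt_definite hψ hfin hU)
    (petInt_heckeT_adjoint hψ hfin) hNS

/-- **Simultaneous diagonalisation of the anemic Hecke algebra.** -/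
theorem exists_eigenbasis' {N : ℕ} [NeZero N] {S : Set ℕ}
    (hNS : ∀ q : ℕ, q.Prime → q ∣ N → q ∈ S) :
    ∃ (ι : Type) (_ : Fintype ι) (b : Module.Basis ι ℂ (S2 N))
      (χ : ι → (CuspForm.heckeAlgebra N 2 S →+* ℂ)),
      ∀ (i : ι) (x : CuspForm.heckeAlgebra N 2 S),
        (x : Module.End ℂ (S2 N)) (b i) = χ i x • b i := by
  obtain ⟨ψ, hψ, hfin, hU⟩ := exists_partition N
  exact exists_eigenbasis (B := petInt ψ) (petInt_add_right hψ hfin)
    (fun c f g => petInt_smul_right c f g) (fun f g => petInt_conj_symm f g)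
    (fun f => petInt_self_re_nonneg f) (petInt_definite hψ hfin hU)
    (petInt_heckeT_adjoint hψ hfin) hNS

end Fermat.Agent.S31lib.PET
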