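/-
S31lib / PET / Partition  (helper3).

Partition functions for a countable group `Γ` acting (through `ρ : Γ →* G`) on a measure space
`(X, μ)` with `G`-invariant measure: a measurable `ψ : X → ℝ≥0∞` with `∑_γ ψ(γ z) = 1` everywhere.
The integral `∫ h ψ dμ` of a `Γ`-invariant function does not depend on the partition function,
and partition functions can be transported along coset decompositions and conjugations.
This replaces fundamental domains in the construction of the Petersson product.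
-/
import Mathlib

set_option autoImplicit false
set_option linter.unusedSectionVars false

noncomputable section

namespace Fermat.Agent.S31lib.PET

open MeasureTheory ENNReal

variable {G X : Type*} [Group G] [MulAction G X] [MeasurableSpace X] {μ : Measure X}
  [SMulInvariantMeasure G X μ] [MeasurableConstSMul G X]

/-- `ψ` is a partition function for the group `Γ` acting through `ρ : Γ →* G`. -/
structure IsPartition {Γ : Type*} [Group Γ] (ρ : Γ →* G) (ψ : X → ℝ≥0∞) : Prop where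
  measurable : Measurable ψ
  tsum_eq : ∀ z, ∑' γ : Γ, ψ (ρ γ • z) = 1

variable {Γ : Type*} [Group Γ] {ρ : Γ →* G} {ψ ψ₁ ψ₂ : X → ℝ≥0∞}

omit [SMulInvariantMeasure G X μ] [MeasurableConstSMul G X] in
theorem IsPartition.le_one (h : IsPartition ρ ψ) (z : X) : ψ z ≤ 1 := by
  have h1 : ψ (ρ 1 • z) ≤ ∑' γ : Γ, ψ (ρ γ • z) := ENNReal.le_tsum 1
  rwa [map_one, one_smul, h.tsum_eq z] at h1

omit [SMulInvariantMeasure G X μ] in
theorem measurable_comp_smul {E : Type*} [MeasurableSpace E] {f : X → E} (hf : Measurable f)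
    (g : G) : Measurable fun z => f (g • z) :=
  hf.comp (measurable_const_smul g)

/-- change of variables by an element of `G`. -/
theorem lintegral_comp_smul (g : G) {f : X → ℝ≥0∞} (hf : Measurable f) :
    ∫⁻ z, f (g • z) ∂μ = ∫⁻ z, f z ∂μ :=
  (measurePreserving_smul g μ).lintegral_comp hf

omit [SMulInvariantMeasure G X μ] [MeasurableConstSMul G X] in
/-- the sum over the inverses -/
theorem IsPartition.tsum_inv_eq (h : IsPartition ρ ψ) (z : X) :
    ∑' γ : Γ, ψ ((ρ γ)⁻¹ • z) = 1 := by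
  rw [← h.tsum_eq z, ← (Equiv.inv Γ).tsum_eq (fun γ => ψ (ρ γ • z))]
  refine tsum_congr fun γ => ?_
  rw [Equiv.inv_apply, map_inv]

/-- **(U)** the integral of an invariant function against a partition function does not depend on
the partition function. -/
theorem IsPartition.lintegral_eq [Countable Γ] (h₁ : IsPartition ρ ψ₁) (h₂ : IsPartition ρ ψ₂)
    {h : X → ℝ≥0∞} (hm : Measurable h) (hinv : ∀ (γ : Γ) (z : X), h (ρ γ • z) = h z) :
    ∫⁻ z, h z * ψ₁ z ∂μ = ∫⁻ z, h z * ψ₂ z ∂μ := by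
  have hinv' : ∀ (γ : Γ) (z : X), h ((ρ γ)⁻¹ • z) = h z := by
    intro γ z
    rw [← map_inv]
    exact hinv γ⁻¹ z
  calc ∫⁻ z, h z * ψ₁ z ∂μ
      = ∫⁻ z, ∑' γ : Γ, h z * ψ₁ z * ψ₂ (ρ γ • z) ∂μ := by
        refine lintegral_congr fun z => ?_
        rw [ENNReal.tsum_mul_left, h₂.tsum_eq z, mul_one]
    _ = ∑' γ : Γ, ∫⁻ z, h z * ψ₁ z * ψ₂ (ρ γ • z) ∂μ := by
        refine lintegral_tsum fun γ => ?_
        exact ((hm.mul h₁.measurable).mul (measurable_comp_smul h₂.measurable (ρ γ))).aemeasurable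
    _ = ∑' γ : Γ, ∫⁻ w, h w * ψ₁ ((ρ γ)⁻¹ • w) * ψ₂ w ∂μ := by
        refine tsum_congr fun γ => ?_
        have hK : Measurable fun w => h w * ψ₁ ((ρ γ)⁻¹ • w) * ψ₂ w :=
          (hm.mul (measurable_comp_smul h₁.measurable _)).mul h₂.measurable
        rw [← lintegral_comp_smul (μ := μ) (ρ γ) hK]
        refine lintegral_congr fun z => ?_
        simp only [inv_smul_smul, hinv γ z]
    _ = ∫⁻ w, ∑' γ : Γ, h w * ψ₁ ((ρ γ)⁻¹ • w) * ψ₂ w ∂μ := by
        refine (lintegral_tsum fun γ => ?_).symm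
        exact ((hm.mul (measurable_comp_smul h₁.measurable _)).mul h₂.measurable).aemeasurable
    _ = ∫⁻ w, h w * ψ₂ w ∂μ := by
        refine lintegral_congr fun w => ?_
        have : ∀ γ : Γ, h w * ψ₁ ((ρ γ)⁻¹ • w) * ψ₂ w = (h w * ψ₂ w) * ψ₁ ((ρ γ)⁻¹ • w) := by
          intro γ
          ring
        simp_rw [this]
        rw [ENNReal.tsum_mul_left, h₁.tsum_inv_eq w, mul_one]

/-- **(a)+(b)** new partition functions from a family `u x` of elements of `G` and a bijection
`ι × Γ' ≃ Γ` with `u x * γ' = Φ (x, γ') * t`. -/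
theorem IsPartition.of_family (hψ : IsPartition ρ ψ) {Γ' : Type*} [Group Γ'] (ρ' : Γ' →* G)
    {ι : Type*} [Countable ι] (u : ι → G) (t : G) (Φ : ι × Γ' ≃ Γ)
    (hΦ : ∀ (x : ι) (γ' : Γ'), u x * ρ' γ' = ρ (Φ (x, γ')) * t) :
    IsPartition ρ' (fun w => ∑' x, ψ (u x • w)) where
  measurable := Measurable.ennreal_tsum fun x => measurable_comp_smul hψ.measurable (u x)
  tsum_eq := by
    intro z
    calc ∑' γ' : Γ', ∑' x, ψ (u x • ρ' γ' • z)
        = ∑' p : ι × Γ', ψ (u p.1 • ρ' p.2 • z) := by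
          rw [ENNReal.tsum_comm, ← ENNReal.tsum_prod]
      _ = ∑' p : ι × Γ', ψ (ρ (Φ p) • (t • z)) := by
          refine tsum_congr fun p => ?_
          rw [← mul_smul, ← mul_smul, hΦ p.1 p.2]
      _ = ∑' γ : Γ, ψ (ρ γ • (t • z)) := Φ.tsum_eq (fun γ => ψ (ρ γ • (t • z)))
      _ = 1 := hψ.tsum_eq (t • z)

end Fermat.Agent.S31lib.PET
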