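/-
S31lib / PET / PartitionC  (helper3).

Bochner-integral (real and complex valued) versions of the independence of the partition function,
and the transfer identity between two coset families (what the adjointness of the Hecke
operators uses).
-/
import Mathlib
import Fermat.Agent.S31lib.PET.Partition

set_option autoImplicit false
set_option linter.unusedSectionVars false

noncomputable section

namespace Fermat.Agent.S31lib.PET

open MeasureTheory ENNReal

variable {G X : Type*} [Group G] [MulAction G X] [MeasurableSpace X] {μ : Measure X}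
  [SMulInvariantMeasure G X μ] [MeasurableConstSMul G X]

variable {Γ : Type*} [Group Γ] {ρ : Γ →* G} {ψ ψ₁ ψ₂ : X → ℝ≥0∞}

omit [SMulInvariantMeasure G X μ] [MeasurableConstSMul G X] in
theorem IsPartition.integrable_toReal (h : IsPartition ρ ψ) (hf : ∫⁻ z, ψ z ∂μ ≠ ∞) :
    Integrable (fun z => (ψ z).toReal) μ :=
  integrable_toReal_of_lintegral_ne_top h.measurable.aemeasurable hf

omit [SMulInvariantMeasure G X μ] [MeasurableConstSMul G X] in
/-- bounded measurable times a partition function of finite mass is integrable (real). -/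
theorem IsPartition.integrable_mul_real (h : IsPartition ρ ψ) (hf : ∫⁻ z, ψ z ∂μ ≠ ∞)
    {R : X → ℝ} (hm : Measurable R) {C : ℝ} (hb : ∀ z, |R z| ≤ C) :
    Integrable (fun z => R z * (ψ z).toReal) μ :=
  (h.integrable_toReal hf).bdd_mul hm.aestronglyMeasurable
    (Filter.Eventually.of_forall fun z => by rw [Real.norm_eq_abs]; exact hb z)

omit [SMulInvariantMeasure G X μ] [MeasurableConstSMul G X] in
/-- bounded measurable times a partition function of finite mass is integrable (complex). -/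
theorem IsPartition.integrable_mul (h : IsPartition ρ ψ) (hf : ∫⁻ z, ψ z ∂μ ≠ ∞)
    {H : X → ℂ} (hm : Measurable H) {C : ℝ} (hb : ∀ z, ‖H z‖ ≤ C) :
    Integrable (fun z => H z * ((ψ z).toReal : ℂ)) μ :=
  ((h.integrable_toReal hf).ofReal (𝕜 := ℂ)).bdd_mul hm.aestronglyMeasurable
    (Filter.Eventually.of_forall hb)

/-- (U), real nonnegative bounded integrands -/
theorem IsPartition.integral_eq_of_nonneg [Countable Γ] (h₁ : IsPartition ρ ψ₁)
    (h₂ : IsPartition ρ ψ₂) {R : X → ℝ} (hm : Measurable R) (h0 : ∀ z, 0 ≤ R z)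
    (hinv : ∀ (γ : Γ) (z : X), R (ρ γ • z) = R z) :
    ∫ z, R z * (ψ₁ z).toReal ∂μ = ∫ z, R z * (ψ₂ z).toReal ∂μ := by
  have key : ∀ {ψ : X → ℝ≥0∞}, IsPartition ρ ψ →
      ∫ z, R z * (ψ z).toReal ∂μ = (∫⁻ z, ENNReal.ofReal (R z) * ψ z ∂μ).toReal := by
    intro ψ hψ
    rw [integral_eq_lintegral_of_nonneg_ae
      (Filter.Eventually.of_forall fun z => mul_nonneg (h0 z) ENNReal.toReal_nonneg)
      (hm.mul hψ.measurable.ennreal_toReal).aestronglyMeasurable]
    congr 1
    refine lintegral_congr fun z => ?_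
    rw [ENNReal.ofReal_mul (h0 z), ENNReal.ofReal_toReal]
    exact ne_top_of_le_ne_top ENNReal.one_ne_top (hψ.le_one z)
  rw [key h₁, key h₂, h₁.lintegral_eq h₂ (h := fun z => ENNReal.ofReal (R z))
    hm.ennreal_ofReal (fun γ z => by simp only [hinv γ z])]

/-- (U), real bounded integrands -/
theorem IsPartition.integral_eq_real [Countable Γ] (h₁ : IsPartition ρ ψ₁)
    (h₂ : IsPartition ρ ψ₂) (hf₁ : ∫⁻ z, ψ₁ z ∂μ ≠ ∞) (hf₂ : ∫⁻ z, ψ₂ z ∂μ ≠ ∞)
    {R : X → ℝ} (hm : Measurable R) {C : ℝ} (hb : ∀ z, |R z| ≤ C)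
    (hinv : ∀ (γ : Γ) (z : X), R (ρ γ • z) = R z) :
    ∫ z, R z * (ψ₁ z).toReal ∂μ = ∫ z, R z * (ψ₂ z).toReal ∂μ := by
  set C' : ℝ := max C 0 with hC'
  have hC0 : 0 ≤ C' := le_max_right _ _
  have hb' : ∀ z, |R z| ≤ C' := fun z => (hb z).trans (le_max_left _ _)
  have hC : ∀ z, 0 ≤ R z + C' := fun z => by linarith [neg_abs_le (R z), hb' z]
  have e1 := h₁.integral_eq_of_nonneg (μ := μ) h₂ (R := fun z => R z + C')
    (hm.add_const C') hC (fun γ z => by simp only [hinv γ z])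
  have e2 := h₁.integral_eq_of_nonneg (μ := μ) h₂ (R := fun _ => C') measurable_const
    (fun _ => hC0) (fun _ _ => rfl)
  have hsplit : ∀ {ψ : X → ℝ≥0∞}, IsPartition ρ ψ → ∫⁻ z, ψ z ∂μ ≠ ∞ →
      ∫ z, R z * (ψ z).toReal ∂μ =
        ∫ z, (R z + C') * (ψ z).toReal ∂μ - ∫ z, C' * (ψ z).toReal ∂μ := by
    intro ψ hψ hf
    rw [← integral_sub]
    · refine integral_congr_ae (Filter.Eventually.of_forall fun z => ?_)
      simp only
      ring
    · exact hψ.integrable_mul_real hf (R := fun z => R z + C') (hm.add_const C') (C := C' + C')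
        (fun z => by
          rw [abs_of_nonneg (hC z)]
          linarith [le_abs_self (R z), hb' z])
    · exact hψ.integrable_mul_real hf (R := fun _ => C') measurable_const (C := C')
        (fun _ => by rw [abs_of_nonneg hC0])
  rw [hsplit h₁ hf₁, hsplit h₂ hf₂, e1, e2]

/-- **(U), complex bounded integrands.** -/
theorem IsPartition.integral_eq [Countable Γ] (h₁ : IsPartition ρ ψ₁)
    (h₂ : IsPartition ρ ψ₂) (hf₁ : ∫⁻ z, ψ₁ z ∂μ ≠ ∞) (hf₂ : ∫⁻ z, ψ₂ z ∂μ ≠ ∞)
    {H : X → ℂ} (hm : Measurable H) (hb : ∃ C : ℝ, ∀ z, ‖H z‖ ≤ C)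
    (hinv : ∀ (γ : Γ) (z : X), H (ρ γ • z) = H z) :
    ∫ z, H z * ((ψ₁ z).toReal : ℂ) ∂μ = ∫ z, H z * ((ψ₂ z).toReal : ℂ) ∂μ := by
  obtain ⟨C, hC⟩ := hb
  have hre : ∀ {ψ : X → ℝ≥0∞}, IsPartition ρ ψ → ∫⁻ z, ψ z ∂μ ≠ ∞ →
      ∫ z, H z * ((ψ z).toReal : ℂ) ∂μ =
        ((∫ z, (H z).re * (ψ z).toReal ∂μ : ℝ) : ℂ) +
          ((∫ z, (H z).im * (ψ z).toReal ∂μ : ℝ) : ℂ) * Complex.I := by
    intro ψ hψ hf
    have hint := hψ.integrable_mul hf hm hC
    have e_re : ∫ z, RCLike.re (H z * ((ψ z).toReal : ℂ)) ∂μ =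
        ∫ z, (H z).re * (ψ z).toReal ∂μ :=
      integral_congr_ae (Filter.Eventually.of_forall fun z => by simp)
    have e_im : ∫ z, RCLike.im (H z * ((ψ z).toReal : ℂ)) ∂μ =
        ∫ z, (H z).im * (ψ z).toReal ∂μ :=
      integral_congr_ae (Filter.Eventually.of_forall fun z => by simp)
    rw [← integral_re_add_im hint, e_re, e_im]
    rfl
  rw [hre h₁ hf₁, hre h₂ hf₂,
    h₁.integral_eq_real h₂ hf₁ hf₂ (R := fun z => (H z).re)
      (Complex.measurable_re.comp hm) (C := C)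
      (fun z => (Complex.abs_re_le_norm _).trans (hC z))
      (fun γ z => by simp only [hinv γ z]),
    h₁.integral_eq_real h₂ hf₁ hf₂ (R := fun z => (H z).im)
      (Complex.measurable_im.comp hm) (C := C)
      (fun z => (Complex.abs_im_le_norm _).trans (hC z))
      (fun γ z => by simp only [hinv γ z])]

end Fermat.Agent.S31lib.PET
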